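import Mathlib
import Fermat.Agent.S41.H761.CosetSystem2
import Fermat.Agent.S41.H761.HKSystems

/-!
# S59 / cell TW, leaf TW-HECKE (helper653): Betti Hecke modules for `Γ₁(M) ≤ K ≤ Γ₀(M)` — definitions

Everything lives on `X_K(A) := Additive K →+ A` (`= Hom(K, A) = H¹(K, A)`), for a subgroup
`K ≤ SL(2, ℤ)` with `Γ₁(M) ≤ K ≤ Γ₀(M)` (`IsMid M K`).  Examples:

* `K = Gamma0 M` (`isMid_Gamma0`), `K = Gamma1 M` (`isMid_Gamma1`);
* `K = GammaH M H = {γ ∈ Γ₀(M) | (d mod M) ∈ H}` for `H ≤ (ℤ/M)ˣ` (`isMid_GammaH`);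
* `K = ker κ` for `κ : Γ₀(M) →* D` trivial on `Γ₁(M)` (`isMid_of_ker`; this is `MFree.kerSub κ`).
  Taylor–Wiles case: `M = N * Q`, `D = Δ_Q`.

Definitions (the Hecke operators are hypothesis-free):

* `dUnit M : Γ₀(M) →* (ℤ/M)ˣ`            : `γ ↦ d mod M`;
* `ιK K : K →* GL(2, ℝ)`                  : the embedding;
* `conjK hK g : K ≃* K`                   : `k ↦ g k g⁻¹` for `g ∈ Γ₀(M)`;
* `diamond hK g φ = φ ∘ conjK hK g`        : the diamond operator `⟨d(g)⟩`;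
* `resK h`, `coresK h`                     : restriction `X_K → X_{K'}` and transfer back (`K' ≤ K`);
* `sysOp ι ρ`                              : the operator of a finite family `ρ : I → 𝒢` of
                                             representatives (`0` unless `ρ` is a coset system);
* `sigma M ℓ ∈ Γ₀(M)`                      : a fixed element with lower right entry `ℓ`
                                             (for `gcd(ℓ, M) = 1`);
* `repsT M ℓ : ℙ¹(𝔽_ℓ) → GL(2, ℝ)`         : `j ↦ [[1, j], [0, ℓ]]`, `∞ ↦ σ_ℓ [[ℓ, 0], [0, 1]]`;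
* `repsU q : ℤ/q → GL(2, ℝ)`               : `j ↦ [[1, j], [0, q]]`;
* `TK M K ℓ`, `UK K q`                     : `T_ℓ` (`ℓ ∤ M` prime) and `U_q` (`q ∣ M`) on `X_K(A)`;
* `IsCuspidalK`                            : cuspidal classes (vanish on `tr² = 4` and on
                                             elements of finite order).

Conventions: `(T φ)(g) = ∑_i φ(c_i(g))` where `ρ_i g = c_i(g) ρ_{i·g}` (the classical action of
`K α K = ⊔ K ρ_i` on `H¹`), and `(diamond g φ)(k) = φ(g k g⁻¹)` is the operator of the one-element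
family `{g}`.
-/

set_option autoImplicit false

namespace Fermat.Agent.S59.TW.H653

open CongruenceSubgroup Matrix.SpecialLinearGroup ModularCurve.Period ModularForm
open Fermat.Agent.S29.H642 Fermat.Agent.S41.H761
open P2MW.S_ModularForm_heckeT_slash_eq_self_of_mem_Gamma0.ModularForm.HeckeSlashInvariance
open scoped MatrixGroups

/-! ## Subgroups between `Γ₁(M)` and `Γ₀(M)` -/

/-- `γ ↦ d mod M`, as a character `Γ₀(M) →* (ℤ/M)ˣ`. -/
def dUnit (M : ℕ) : Gamma0 M →* (ZMod M)ˣ := (Gamma0Map M).toHomUnits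

@[simp] theorem coe_dUnit {M : ℕ} (g : Gamma0 M) :
    ((dUnit M g : (ZMod M)ˣ) : ZMod M) = (((g : SL(2, ℤ)) 1 1 : ℤ) : ZMod M) := rfl

/-- `K` is a subgroup of `SL(2, ℤ)` with `Γ₁(M) ≤ K ≤ Γ₀(M)`. -/
structure IsMid (M : ℕ) (K : Subgroup SL(2, ℤ)) : Prop where
  le : K ≤ Gamma0 M
  ge : Gamma1 M ≤ K

variable {M : ℕ}

theorem a_mul_d_of_mem_Gamma0 (g : Gamma0 M) :
    (((g : SL(2, ℤ)) 0 0 : ℤ) : ZMod M) * (((g : SL(2, ℤ)) 1 1 : ℤ) : ZMod M) = 1 := by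
  have h1 := det_eq (g : SL(2, ℤ))
  have h2 : (((g : SL(2, ℤ)) 1 0 : ℤ) : ZMod M) = 0 := Gamma0_mem.mp g.2
  have h3 := congrArg (Int.cast : ℤ → ZMod M) h1
  push_cast at h3
  rw [h2, mul_zero, sub_zero] at h3
  exact h3

theorem mem_Gamma1_of_dUnit {g : Gamma0 M} (h : dUnit M g = 1) : (g : SL(2, ℤ)) ∈ Gamma1 M := by
  have h1 : (((g : SL(2, ℤ)) 1 1 : ℤ) : ZMod M) = 1 := by
    rw [← coe_dUnit, h, Units.val_one]
  have h2 := a_mul_d_of_mem_Gamma0 g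
  rw [h1, mul_one] at h2
  exact (Gamma1_mem M _).mpr ⟨h2, h1, Gamma0_mem.mp g.2⟩

theorem dUnit_of_mem_Gamma1 {g : Gamma0 M} (h : (g : SL(2, ℤ)) ∈ Gamma1 M) : dUnit M g = 1 := by
  apply Units.ext
  rw [coe_dUnit, Units.val_one]
  exact ((Gamma1_mem M _).mp h).2.1

theorem isMid_Gamma0 (M : ℕ) : IsMid M (Gamma0 M) := ⟨le_refl _, Gamma1_in_Gamma0 M⟩

theorem isMid_Gamma1 (M : ℕ) : IsMid M (Gamma1 M) := ⟨Gamma1_in_Gamma0 M, le_refl _⟩

/-- The kernel of a homomorphism `κ : Γ₀(M) →* D` which is trivial on `Γ₁(M)`. -/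
theorem isMid_of_ker {D : Type*} [Group D] (κ : Gamma0 M →* D)
    (hκ : ∀ γ : Gamma0 M, (γ : SL(2, ℤ)) ∈ Gamma1 M → κ γ = 1) :
    IsMid M (κ.ker.map (Gamma0 M).subtype) where
  le := by
    rintro _ ⟨γ, -, rfl⟩
    exact γ.2
  ge := fun g hg => ⟨⟨g, Gamma1_in_Gamma0 M hg⟩, hκ _ hg, rfl⟩

namespace IsMid

variable {K : Subgroup SL(2, ℤ)}

/-- An element of `Γ₀(M)` with the same `d mod M` as an element of `K` lies in `K`. -/
theorem mem_of_dUnit_eq (hK : IsMid M K) {g k : Gamma0 M} (hk : (k : SL(2, ℤ)) ∈ K)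
    (h : dUnit M g = dUnit M k) : (g : SL(2, ℤ)) ∈ K := by
  have h1 : dUnit M (g * k⁻¹) = 1 := by rw [map_mul, map_inv, h, mul_inv_cancel]
  have h2 : ((g * k⁻¹ : Gamma0 M) : SL(2, ℤ)) ∈ K := hK.ge (mem_Gamma1_of_dUnit h1)
  have h3 : (g : SL(2, ℤ)) = ((g * k⁻¹ : Gamma0 M) : SL(2, ℤ)) * (k : SL(2, ℤ)) := by
    simp
  rw [h3]
  exact K.mul_mem h2 hk

theorem mem_of_dUnit_eq_one (hK : IsMid M K) {g : Gamma0 M} (h : dUnit M g = 1) :
    (g : SL(2, ℤ)) ∈ K :=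
  hK.ge (mem_Gamma1_of_dUnit h)

theorem conj_mem (hK : IsMid M K) (g : Gamma0 M) {k : SL(2, ℤ)} (hk : k ∈ K) :
    (g : SL(2, ℤ)) * k * (g : SL(2, ℤ))⁻¹ ∈ K := by
  have h1 : dUnit M (g * ⟨k, hK.le hk⟩ * g⁻¹) = dUnit M ⟨k, hK.le hk⟩ := by
    rw [map_mul, map_mul, map_inv, mul_comm, inv_mul_cancel_left]
  exact hK.mem_of_dUnit_eq (k := ⟨k, hK.le hk⟩) hk h1

end IsMid

/-! ## The groups `Γ_H(M)` -/

/-- `Γ_H(M)` as a subgroup of `Γ₀(M)`. -/
def GammaHsub (M : ℕ) (H : Subgroup (ZMod M)ˣ) : Subgroup (Gamma0 M) := H.comap (dUnit M)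

/-- `Γ_H(M) = {γ ∈ Γ₀(M) | (d mod M) ∈ H}` as a subgroup of `SL(2, ℤ)`. -/
def GammaH (M : ℕ) (H : Subgroup (ZMod M)ˣ) : Subgroup SL(2, ℤ) :=
  (GammaHsub M H).map (Gamma0 M).subtype

theorem mem_GammaH {H : Subgroup (ZMod M)ˣ} {g : SL(2, ℤ)} :
    g ∈ GammaH M H ↔ ∃ hg : g ∈ Gamma0 M, dUnit M ⟨g, hg⟩ ∈ H := by
  constructor
  · rintro ⟨γ, hγ, rfl⟩
    exact ⟨γ.2, hγ⟩
  · rintro ⟨hg, h⟩
    exact ⟨⟨g, hg⟩, h, rfl⟩

theorem GammaH_le (M : ℕ) (H : Subgroup (ZMod M)ˣ) : GammaH M H ≤ Gamma0 M :=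
  fun _ hg => (mem_GammaH.mp hg).1

theorem GammaH_mono {H H' : Subgroup (ZMod M)ˣ} (h : H ≤ H') : GammaH M H ≤ GammaH M H' := by
  intro g hg
  obtain ⟨h1, h2⟩ := mem_GammaH.mp hg
  exact mem_GammaH.mpr ⟨h1, h h2⟩

theorem isMid_GammaH (M : ℕ) (H : Subgroup (ZMod M)ˣ) : IsMid M (GammaH M H) where
  le := GammaH_le M H
  ge := by
    intro g hg
    refine mem_GammaH.mpr ⟨Gamma1_in_Gamma0 M hg, ?_⟩
    rw [dUnit_of_mem_Gamma1 (g := ⟨g, Gamma1_in_Gamma0 M hg⟩) hg]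
    exact one_mem H

theorem GammaH_top (M : ℕ) : GammaH M ⊤ = Gamma0 M := by
  ext g
  rw [mem_GammaH]
  exact ⟨fun h => h.1, fun h => ⟨h, Subgroup.mem_top _⟩⟩

/-- The group `ker κ` of block M-FREE is `Γ_H(M)` for `H = ker χ`, if `κ = χ ∘ dUnit`. -/
theorem ker_comp_dUnit_eq_GammaH {D : Type*} [Group D] (χ : (ZMod M)ˣ →* D) :
    (χ.comp (dUnit M)).ker.map (Gamma0 M).subtype = GammaH M χ.ker := rfl

/-! ## Embeddings and conjugation -/

section Emb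

variable (K : Subgroup SL(2, ℤ))

/-- The embedding `K → GL(2, ℝ)`. -/
noncomputable def ιK : K →* GL (Fin 2) ℝ := (mapGL ℝ).comp K.subtype

theorem ιK_injective : Function.Injective (ιK K) :=
  mapGL_real_injective.comp Subtype.val_injective

variable {K}

theorem ιK_apply (k : K) : ιK K k = mapGL ℝ (k : SL(2, ℤ)) := rfl

theorem ιN_eq_ιK (M : ℕ) : ιN M = ιK (Gamma0 M) := rfl

/-- The inclusion `K → Γ₀(M)`. -/
def inclK (hK : IsMid M K) : K →* Gamma0 M := Subgroup.inclusion hK.le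

theorem inclK_injective (hK : IsMid M K) : Function.Injective (inclK hK) :=
  Subgroup.inclusion_injective _

@[simp] theorem inclK_coe (hK : IsMid M K) (k : K) :
    ((inclK hK k : Gamma0 M) : SL(2, ℤ)) = k := rfl

theorem ιN_inclK (hK : IsMid M K) (k : K) : ιN M (inclK hK k) = ιK K k := rfl

/-- Conjugation by `g ∈ Γ₀(M)` as an automorphism of `K`: `k ↦ g k g⁻¹`. -/
def conjK (hK : IsMid M K) (g : Gamma0 M) : K ≃* K where
  toFun k := ⟨(g : SL(2, ℤ)) * k * (g : SL(2, ℤ))⁻¹, hK.conj_mem g k.2⟩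
  invFun k := ⟨(g : SL(2, ℤ))⁻¹ * k * (g : SL(2, ℤ)), by
    have := hK.conj_mem g⁻¹ k.2
    simpa using this⟩
  left_inv k := by
    apply Subtype.ext
    simp [mul_assoc]
  right_inv k := by
    apply Subtype.ext
    simp [mul_assoc]
  map_mul' k k' := by
    apply Subtype.ext
    simp [mul_assoc]

@[simp] theorem conjK_coe (hK : IsMid M K) (g : Gamma0 M) (k : K) :
    ((conjK hK g k : K) : SL(2, ℤ)) = (g : SL(2, ℤ)) * k * (g : SL(2, ℤ))⁻¹ := rfl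

end Emb

/-! ## The modules `X_K(A)` and the basic operators -/

section Operators

variable {K K' : Subgroup SL(2, ℤ)} {A : Type*} [AddCommGroup A]

/-- The diamond operator of `g ∈ Γ₀(M)` on `X_K(A)`: `(⟨g⟩ φ)(k) = φ(g k g⁻¹)`. -/
def diamond (hK : IsMid M K) (g : Gamma0 M) (φ : Additive K →+ A) : Additive K →+ A :=
  φ.comp (MonoidHom.toAdditive (conjK hK g).toMonoidHom)

@[simp] theorem diamond_apply (hK : IsMid M K) (g : Gamma0 M) (φ : Additive K →+ A) (k : K) :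
    diamond hK g φ (Additive.ofMul k) = φ (Additive.ofMul (conjK hK g k)) := rfl

/-- Restriction `Hom(K, A) → Hom(K', A)` for `K' ≤ K`. -/
def resK (h : K' ≤ K) (φ : Additive K →+ A) : Additive K' →+ A :=
  φ.comp (MonoidHom.toAdditive (Subgroup.inclusion h))

@[simp] theorem resK_apply (h : K' ≤ K) (φ : Additive K →+ A) (k : K') :
    resK h φ (Additive.ofMul k) = φ (Additive.ofMul (Subgroup.inclusion h k)) := rfl

/-- Corestriction (transfer) `Hom(K', A) → Hom(K, A)` for `K' ≤ K` (of finite index). -/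
noncomputable def coresK (h : K' ≤ K) (ψ : Additive K' →+ A) : Additive K →+ A :=
  Fermat.Agent.S41.Spec.transferAlong (Subgroup.inclusion h) ψ

end Operators

/-! ## Operators of coset systems -/

section SysOp

variable {𝒢 Γ : Type*} [Group 𝒢] [Group Γ] {I : Type*} [Fintype I] {A : Type*} [AddCommGroup A]

/-- The operator on `Hom(Γ, A)` of a finite family `ρ : I → 𝒢` of representatives:
`(T φ)(g) = ∑ i, φ (c_i(g))` with `ρ i * ι g = ι (c_i(g)) * ρ (i · g)`, if `ρ` is a coset system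
from `Γ` to `Γ`; `0` otherwise. -/
noncomputable def sysOp (ι : Γ →* 𝒢) (ρ : I → 𝒢) (φ : Additive Γ →+ A) : Additive Γ →+ A :=
  open scoped Classical in
  if h : IsCosetSystem ι ι ρ then h.transfer φ else 0

theorem sysOp_eq {ι : Γ →* 𝒢} {ρ : I → 𝒢} (h : IsCosetSystem ι ι ρ) (φ : Additive Γ →+ A) :
    sysOp ι ρ φ = h.transfer φ := by
  unfold sysOp
  rw [dif_pos h]

end SysOp

/-! ## The representatives of `T_ℓ` and `U_q` -/

/-- A fixed element `σ_ℓ = [[x, -y], [M, ℓ]]` of `Γ₀(M)` with lower right entry `ℓ`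
(`ℓ x + M y = 1`); `1` if `gcd(ℓ, M) ≠ 1`. -/
noncomputable def sigma (M ℓ : ℕ) : Gamma0 M :=
  open scoped Classical in
  if h : (Int.gcdA ℓ M) * (ℓ : ℤ) - (-Int.gcdB ℓ M) * (M : ℤ) = 1 then
    mkGamma0 M (Int.gcdA ℓ M) (-Int.gcdB ℓ M) M ℓ h (dvd_refl _)
  else 1

/-- The representatives of `T_ℓ` at level `M`: `j ↦ [[1, j], [0, ℓ]]` and
`∞ ↦ σ_ℓ * [[ℓ, 0], [0, 1]]`.  All of them are `≡ [[1, *], [0, ℓ]] mod M`. -/
noncomputable def repsT (M ℓ : ℕ) (x : OnePoint (ZMod ℓ)) : GL (Fin 2) ℝ :=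
  x.elim (ιN M (sigma M ℓ) * heckeDiagMatrix ℓ) (fun j => heckeMatrix ℓ j.val)

@[simp] theorem repsT_infty (M ℓ : ℕ) :
    repsT M ℓ OnePoint.infty = ιN M (sigma M ℓ) * heckeDiagMatrix ℓ := rfl

@[simp] theorem repsT_coe (M ℓ : ℕ) (j : ZMod ℓ) :
    repsT M ℓ (j : OnePoint (ZMod ℓ)) = heckeMatrix ℓ j.val := rfl

/-- The representatives of `U_q`: `j ↦ [[1, j], [0, q]]`. -/
noncomputable def repsU (q : ℕ) (j : ZMod q) : GL (Fin 2) ℝ := heckeMatrix q j.val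

section Hecke

variable (M) (K : Subgroup SL(2, ℤ)) {A : Type*} [AddCommGroup A]

/-- `T_ℓ` on `X_K(A) = Hom(K, A)`, `Γ₁(M) ≤ K ≤ Γ₀(M)` (meaningful for `ℓ ∤ M` prime). -/
noncomputable def TK (ℓ : ℕ) [NeZero ℓ] (φ : Additive K →+ A) : Additive K →+ A :=
  sysOp (ιK K) (repsT M ℓ) φ

/-- `U_q` on `X_K(A) = Hom(K, A)`, `Γ₁(M) ≤ K ≤ Γ₀(M)` (meaningful for `q ∣ M` prime). -/
noncomputable def UK (q : ℕ) [NeZero q] (φ : Additive K →+ A) : Additive K →+ A :=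
  sysOp (ιK K) (repsU q) φ

end Hecke

/-! ## Cuspidal classes -/

section Cusp

variable {K : Subgroup SL(2, ℤ)} {A : Type*} [AddCommGroup A]

/-- Cuspidal classes on `K`: vanish on all `γ` with `(tr γ)² = 4` and on all `γ` of finite
order. -/
def IsCuspidalK (φ : Additive K →+ A) : Prop :=
  IsParabolicHom K φ ∧ ∀ γ : K, IsOfFinOrder γ → φ (Additive.ofMul γ) = 0

variable (K A)

/-- The subgroup of cuspidal classes of `X_K(A)`. -/
def cuspK : AddSubgroup (Additive K →+ A) where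
  carrier := {φ | IsCuspidalK φ}
  zero_mem' := ⟨fun _ _ => rfl, fun _ _ => rfl⟩
  add_mem' := by
    rintro φ ψ ⟨h1, h2⟩ ⟨h3, h4⟩
    refine ⟨fun γ hγ => ?_, fun γ hγ => ?_⟩
    · rw [AddMonoidHom.add_apply, h1 γ hγ, h3 γ hγ, add_zero]
    · rw [AddMonoidHom.add_apply, h2 γ hγ, h4 γ hγ, add_zero]
  neg_mem' := by
    rintro φ ⟨h1, h2⟩
    refine ⟨fun γ hγ => ?_, fun γ hγ => ?_⟩
    · rw [AddMonoidHom.neg_apply, h1 γ hγ, neg_zero]
    · rw [AddMonoidHom.neg_apply, h2 γ hγ, neg_zero]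

variable {K A}

theorem mem_cuspK {φ : Additive K →+ A} : φ ∈ cuspK K A ↔ IsCuspidalK φ := Iff.rfl

end Cusp

end Fermat.Agent.S59.TW.H653
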