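import Mathlib
import Fermat.Agent.S59.TW.H653.Defs

/-!
# S59 / TW-HECKE (helper653): the coset systems of `T_ℓ` and `U_q` on `K`, `Γ₁(M) ≤ K ≤ Γ₀(M)`

* `IsCosetSystem.twist` : changing the representatives of a coset system by left factors;
* `IsNormRep M X` : `X ∈ GL(2, ℝ)` is an integral matrix `≡ [[1, *], [0, *]] mod M`;
* `normRep_coc` : if `X * g = g' * Y` with `X, Y` normalised and `g ∈ Γ₀(M)`, then `g' ∈ Γ₀(M)` and
  `dUnit g' = dUnit g`;
* `system_of_gamma0` : a coset system for `Γ₀(M)` with normalised representatives is a coset system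
  for every `K` with `Γ₁(M) ≤ K ≤ Γ₀(M)`, with the same cocycle;
* `repsU_system0`, `repsT_system0`, `repsU_system`, `repsT_system`.
-/

set_option autoImplicit false

namespace Fermat.Agent.S59.TW.H653

open CongruenceSubgroup Matrix.SpecialLinearGroup ModularCurve.Period ModularForm
open Fermat.Agent.S29.H642 Fermat.Agent.S41.H761
open P2MW.S_ModularForm_heckeT_slash_eq_self_of_mem_Gamma0.ModularForm.HeckeSlashInvariance
open scoped MatrixGroups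

/-! ## Twisting a coset system -/

section Twist

variable {𝒢 Γ Γ' : Type*} [Group 𝒢] [Group Γ] [Group Γ'] {I : Type*}
variable {ι : Γ →* 𝒢} {ι' : Γ' →* 𝒢} {ρ : I → 𝒢}

/-- Changing the representatives of a coset system by left factors from `Γ`. -/
theorem twist (h : IsCosetSystem ι ι' ρ) (τ : I → Γ) :
    IsCosetSystem ι ι' (fun i => ι (τ i) * ρ i) where
  inj := h.inj
  exists_mul := by
    intro i g'
    refine ⟨h.act i g', τ i * h.coc i g' * (τ (h.act i g'))⁻¹, ?_⟩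
    simp only [map_mul, map_inv, mul_assoc, inv_mul_cancel_left]
    rw [h.spec i g']
  eq_of_mul := by
    intro i j g e
    apply h.eq_of_mul i j ((τ i)⁻¹ * g * τ j)
    simp only [map_mul, map_inv, mul_assoc]
    rw [← e, inv_mul_cancel_left]

theorem twist_act (h : IsCosetSystem ι ι' ρ) (τ : I → Γ) (i : I) (g' : Γ') :
    (twist h τ).act i g' = h.act i g' := by
  apply (twist h τ).act_eq (g := τ i * h.coc i g' * (τ (h.act i g'))⁻¹)
  simp only [map_mul, map_inv, mul_assoc, inv_mul_cancel_left]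
  rw [h.spec i g']

theorem twist_coc (h : IsCosetSystem ι ι' ρ) (τ : I → Γ) (i : I) (g' : Γ') :
    (twist h τ).coc i g' = τ i * h.coc i g' * (τ (h.act i g'))⁻¹ := by
  apply (twist h τ).coc_eq (j := h.act i g')
  simp only [map_mul, map_inv, mul_assoc, inv_mul_cancel_left]
  rw [h.spec i g']

theorem twist_transfer [Fintype I] {A : Type*} [AddCommGroup A] (h : IsCosetSystem ι ι' ρ)
    (τ : I → Γ) (φ : Additive Γ →+ A) : (twist h τ).transfer φ = h.transfer φ := by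
  refine AddMonoidHom.ext fun g' => ?_
  obtain ⟨g, rfl⟩ : ∃ g : Γ', Additive.ofMul g = g' := ⟨Additive.toMul g', rfl⟩
  rw [IsCosetSystem.transfer_apply, IsCosetSystem.transfer_apply]
  have hc : ∀ i, φ (Additive.ofMul ((twist h τ).coc i g)) =
      φ (Additive.ofMul (τ i)) + φ (Additive.ofMul (h.coc i g)) -
        φ (Additive.ofMul (τ (h.act i g))) := by
    intro i
    rw [twist_coc, ofMul_mul, ofMul_mul, ofMul_inv, map_add, map_add, map_neg, sub_eq_add_neg]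
  simp only [hc, Finset.sum_add_distrib, Finset.sum_sub_distrib]
  have hperm : ∑ i, φ (Additive.ofMul (τ (h.act i g))) = ∑ i, φ (Additive.ofMul (τ i)) :=
    Equiv.sum_comp (h.actEquiv g) (fun i => φ (Additive.ofMul (τ i)))
  rw [hperm]
  abel

end Twist

/-! ## Normalised representatives -/

/-- `X ∈ GL(2, ℝ)` is an integral matrix `[[a, b], [c, d]]` with `M ∣ c` and `a ≡ 1 mod M`. -/
def IsNormRep (M : ℕ) (X : GL (Fin 2) ℝ) : Prop :=
  ∃ a b c d : ℤ, (M : ℤ) ∣ c ∧ (M : ℤ) ∣ a - 1 ∧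
    (X : Matrix (Fin 2) (Fin 2) ℝ) = !![(a : ℝ), (b : ℝ); (c : ℝ), (d : ℝ)]

variable {M : ℕ}

theorem isNormRep_heckeMatrix {q : ℕ} (hq : q ≠ 0) (j : ℕ) : IsNormRep M (heckeMatrix q j) :=
  ⟨1, j, 0, q, dvd_zero _, by simp, by rw [val_heckeMatrix hq]; simp⟩

/-- Two elements of `Γ₀(M)` with the same upper left entry mod `M` have the same `dUnit`. -/
theorem dUnit_eq_of_a_eq {g g' : Gamma0 M}
    (h : (((g : SL(2, ℤ)) 0 0 : ℤ) : ZMod M) = (((g' : SL(2, ℤ)) 0 0 : ℤ) : ZMod M)) :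
    dUnit M g = dUnit M g' := by
  apply Units.ext
  rw [coe_dUnit, coe_dUnit]
  have h1 := a_mul_d_of_mem_Gamma0 g
  have h2 := a_mul_d_of_mem_Gamma0 g'
  calc (((g : SL(2, ℤ)) 1 1 : ℤ) : ZMod M)
      = (((g' : SL(2, ℤ)) 0 0 : ℤ) : ZMod M) * (((g' : SL(2, ℤ)) 1 1 : ℤ) : ZMod M) *
          (((g : SL(2, ℤ)) 1 1 : ℤ) : ZMod M) := by rw [h2, one_mul]
    _ = (((g : SL(2, ℤ)) 0 0 : ℤ) : ZMod M) * (((g : SL(2, ℤ)) 1 1 : ℤ) : ZMod M) *
          (((g' : SL(2, ℤ)) 1 1 : ℤ) : ZMod M) := by rw [h]; ring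
    _ = (((g' : SL(2, ℤ)) 1 1 : ℤ) : ZMod M) := by rw [h1, one_mul]

/-- If `X * g = g' * Y` with normalised `X`, `Y` and `g ∈ Γ₀(M)`, then `g' ∈ Γ₀(M)` and `g'` has the
same upper left entry mod `M` as `g`. -/
theorem normRep_coc_aux {X Y : GL (Fin 2) ℝ} (hX : IsNormRep M X) (hY : IsNormRep M Y)
    {g g' : SL(2, ℤ)} (hg : g ∈ Gamma0 M) (e : X * mapGL ℝ g = mapGL ℝ g' * Y) :
    (M : ℤ) ∣ g' 1 0 ∧ (M : ℤ) ∣ g' 0 0 - g 0 0 := by
  obtain ⟨a, b, c, d, hc, ha, hXe⟩ := hX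
  obtain ⟨a', b', c', d', hc', ha', hYe⟩ := hY
  have hgc : (M : ℤ) ∣ g 1 0 := dvd_of_mem_Gamma0 hg
  have e00 := congrArg (fun Z : GL (Fin 2) ℝ => (Z : Matrix (Fin 2) (Fin 2) ℝ) 0 0) e
  have e10 := congrArg (fun Z : GL (Fin 2) ℝ => (Z : Matrix (Fin 2) (Fin 2) ℝ) 1 0) e
  simp only [coe_mul_apply, coe_mapGL_apply, hXe, hYe, Matrix.of_apply, Matrix.cons_val',
    Matrix.cons_val_zero, Matrix.cons_val_one, Matrix.cons_val_fin_one] at e00 e10
  have i00 : a * g 0 0 + b * g 1 0 = g' 0 0 * a' + g' 0 1 * c' := by exact_mod_cast e00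
  have i10 : c * g 0 0 + d * g 1 0 = g' 1 0 * a' + g' 1 1 * c' := by exact_mod_cast e10
  obtain ⟨k1, hk1⟩ := hc
  obtain ⟨k2, hk2⟩ := ha
  obtain ⟨k3, hk3⟩ := hc'
  obtain ⟨k4, hk4⟩ := ha'
  obtain ⟨k5, hk5⟩ := hgc
  have ha1 : a = 1 + M * k2 := by linarith
  have ha2 : a' = 1 + M * k4 := by linarith
  constructor
  · refine ⟨k1 * g 0 0 + d * k5 - g' 1 0 * k4 - g' 1 1 * k3, ?_⟩
    rw [hk1, hk5, ha2, hk3] at i10
    linear_combination -i10
  · refine ⟨k2 * g 0 0 + b * k5 - g' 0 0 * k4 - g' 0 1 * k3, ?_⟩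
    rw [ha1, hk5, ha2, hk3] at i00
    linear_combination -i00

theorem normRep_coc {X Y : GL (Fin 2) ℝ} (hX : IsNormRep M X) (hY : IsNormRep M Y)
    {g : Gamma0 M} {g' : SL(2, ℤ)} (e : X * ιN M g = mapGL ℝ g' * Y) :
    ∃ hg' : g' ∈ Gamma0 M, dUnit M ⟨g', hg'⟩ = dUnit M g := by
  obtain ⟨h1, h2⟩ := normRep_coc_aux hX hY g.2 e
  refine ⟨mem_Gamma0_of_dvd h1, dUnit_eq_of_a_eq ?_⟩
  have h3 : (((g' 0 0 - (g : SL(2, ℤ)) 0 0 : ℤ)) : ZMod M) = 0 :=
    (ZMod.intCast_zmod_eq_zero_iff_dvd _ _).mpr h2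
  push_cast at h3
  exact sub_eq_zero.mp h3

/-! ## From `Γ₀(M)` to `K` -/

section Restrict

variable {K : Subgroup SL(2, ℤ)} {I : Type*} {ρ : I → GL (Fin 2) ℝ}

/-- The cocycle of a normalised coset system of `Γ₀(M)` preserves `dUnit`. -/
theorem dUnit_coc (h₀ : IsCosetSystem (ιN M) (ιN M) ρ) (hρ : ∀ i, IsNormRep M (ρ i)) (i : I)
    (g : Gamma0 M) : dUnit M (h₀.coc i g) = dUnit M g := by
  obtain ⟨_, h2⟩ := normRep_coc (hρ i) (hρ (h₀.act i g)) (g := g)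
    (g' := ((h₀.coc i g : Gamma0 M) : SL(2, ℤ))) (h₀.spec i g)
  exact h2

theorem coc_mem (hK : IsMid M K) (h₀ : IsCosetSystem (ιN M) (ιN M) ρ)
    (hρ : ∀ i, IsNormRep M (ρ i)) (i : I) (g' : K) :
    ((h₀.coc i (inclK hK g') : Gamma0 M) : SL(2, ℤ)) ∈ K :=
  hK.mem_of_dUnit_eq (k := inclK hK g') g'.2 (dUnit_coc h₀ hρ i _)

/-- A coset system for `Γ₀(M)` with normalised representatives is a coset system for every
`K` with `Γ₁(M) ≤ K ≤ Γ₀(M)`. -/
theorem system_of_gamma0 (hK : IsMid M K) (h₀ : IsCosetSystem (ιN M) (ιN M) ρ)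
    (hρ : ∀ i, IsNormRep M (ρ i)) : IsCosetSystem (ιK K) (ιK K) ρ where
  inj := ιK_injective K
  exists_mul := fun i g' =>
    ⟨h₀.act i (inclK hK g'), ⟨_, coc_mem hK h₀ hρ i g'⟩, h₀.spec i (inclK hK g')⟩
  eq_of_mul := fun i j g e => h₀.eq_of_mul i j (inclK hK g) e

theorem system_of_gamma0_act (hK : IsMid M K) (h₀ : IsCosetSystem (ιN M) (ιN M) ρ)
    (hρ : ∀ i, IsNormRep M (ρ i)) (i : I) (g' : K) :
    (system_of_gamma0 hK h₀ hρ).act i g' = h₀.act i (inclK hK g') :=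
  (system_of_gamma0 hK h₀ hρ).act_eq (g := ⟨_, coc_mem hK h₀ hρ i g'⟩)
    (h₀.spec i (inclK hK g'))

theorem system_of_gamma0_coc (hK : IsMid M K) (h₀ : IsCosetSystem (ιN M) (ιN M) ρ)
    (hρ : ∀ i, IsNormRep M (ρ i)) (i : I) (g' : K) :
    inclK hK ((system_of_gamma0 hK h₀ hρ).coc i g') = h₀.coc i (inclK hK g') := by
  rw [(system_of_gamma0 hK h₀ hρ).coc_eq (g := ⟨_, coc_mem hK h₀ hρ i g'⟩)
    (h₀.spec i (inclK hK g'))]
  rfl

/-- Restriction to `K` commutes with the transfer of a normalised coset system. -/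
theorem system_of_gamma0_transfer [Fintype I] {A : Type*} [AddCommGroup A] (hK : IsMid M K)
    (h₀ : IsCosetSystem (ιN M) (ιN M) ρ) (hρ : ∀ i, IsNormRep M (ρ i))
    (φ : Additive (Gamma0 M) →+ A) :
    (system_of_gamma0 hK h₀ hρ).transfer (resK hK.le φ) = resK hK.le (h₀.transfer φ) := by
  refine AddMonoidHom.ext fun g' => ?_
  obtain ⟨g, rfl⟩ : ∃ g : K, Additive.ofMul g = g' := ⟨Additive.toMul g', rfl⟩
  rw [IsCosetSystem.transfer_apply, resK_apply, IsCosetSystem.transfer_apply]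
  refine Finset.sum_congr rfl fun i _ => ?_
  rw [resK_apply]
  congr 2
  exact system_of_gamma0_coc hK h₀ hρ i g

/-- More generally, restriction from `K` to `K' ≤ K` commutes with the transfers. -/
theorem system_of_gamma0_transfer_res [Fintype I] {A : Type*} [AddCommGroup A]
    {K' : Subgroup SL(2, ℤ)} (hK : IsMid M K) (hK' : IsMid M K') (h : K' ≤ K)
    (h₀ : IsCosetSystem (ιN M) (ιN M) ρ) (hρ : ∀ i, IsNormRep M (ρ i)) (φ : Additive K →+ A) :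
    (system_of_gamma0 hK' h₀ hρ).transfer (resK h φ) =
      resK h ((system_of_gamma0 hK h₀ hρ).transfer φ) := by
  refine AddMonoidHom.ext fun g' => ?_
  obtain ⟨g, rfl⟩ : ∃ g : K', Additive.ofMul g = g' := ⟨Additive.toMul g', rfl⟩
  rw [IsCosetSystem.transfer_apply, resK_apply, IsCosetSystem.transfer_apply]
  refine Finset.sum_congr rfl fun i _ => ?_
  rw [resK_apply]
  congr 2
  apply inclK_injective hK
  rw [system_of_gamma0_coc hK h₀ hρ]
  exact system_of_gamma0_coc hK' h₀ hρ i g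

end Restrict

/-! ## The systems of `U_q` and `T_ℓ` -/

section UT

variable {K : Subgroup SL(2, ℤ)}

/-- The representatives of `U_q` (`q ∣ M` prime) form a coset system for `Γ₀(M)`. -/
theorem repsU_system0 {q : ℕ} [Fact q.Prime] (hq : q ∣ M) :
    IsCosetSystem (ιN M) (ιN M) (repsU q) where
  inj := ιN_injective M
  exists_mul := by
    intro j g
    have hM : (M : ℤ) ∣ (g : SL(2, ℤ)) 1 0 := dvd_of_mem_Gamma0 g.2
    have hc : (q : ℤ) ∣ (g : SL(2, ℤ)) 1 0 := dvd_trans (by exact_mod_cast hq) hM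
    obtain ⟨g', hg', e⟩ := heckeMatrix_mul_of_dvd (g : SL(2, ℤ)) hc j
    refine ⟨_, ⟨g', mem_Gamma0_of_dvd ?_⟩, e⟩
    rw [hg']
    exact Dvd.dvd.mul_left hM _
  eq_of_mul := by
    intro j k g e
    have e' : heckeRep q (j : OnePoint (ZMod q)) =
        mapGL ℝ (g : SL(2, ℤ)) * heckeRep q (k : OnePoint (ZMod q)) := e
    exact OnePoint.coe_injective (heckeRep_eq_of_mul e')

theorem isNormRep_repsU (q : ℕ) [Fact q.Prime] (j : ZMod q) : IsNormRep M (repsU q j) :=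
  isNormRep_heckeMatrix (Fact.out : q.Prime).ne_zero _

/-- The representatives of `U_q` (`q ∣ M` prime) form a coset system for `K`. -/
theorem repsU_system (hK : IsMid M K) {q : ℕ} [Fact q.Prime] (hq : q ∣ M) :
    IsCosetSystem (ιK K) (ιK K) (repsU q) :=
  system_of_gamma0 hK (repsU_system0 hq) (isNormRep_repsU q)

/-- The twisting elements of `T_ℓ`. -/
noncomputable def tauT (M ℓ : ℕ) (x : OnePoint (ZMod ℓ)) : Gamma0 M :=
  x.elim (sigma M ℓ) (fun _ => 1)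

theorem repsT_eq_twist (M ℓ : ℕ) :
    repsT M ℓ = fun x => ιN M (tauT M ℓ x) * heckeRep ℓ x := by
  funext x
  induction x using OnePoint.rec with
  | infty => rfl
  | coe j =>
    show heckeMatrix ℓ j.val = ιN M 1 * heckeMatrix ℓ j.val
    rw [map_one, one_mul]

/-- The representatives of `T_ℓ` (`ℓ ∤ M` prime) form a coset system for `Γ₀(M)`. -/
theorem repsT_system0 {ℓ : ℕ} [Fact ℓ.Prime] (hℓ : ¬ ℓ ∣ M) :
    IsCosetSystem (ιN M) (ιN M) (repsT M ℓ) := by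
  rw [repsT_eq_twist]
  exact twist (heckeSystem hℓ) (tauT M ℓ)

theorem sigma_spec {ℓ : ℕ} (hℓ : Nat.Coprime ℓ M) :
    ((sigma M ℓ : Gamma0 M) : SL(2, ℤ)) 0 0 = Int.gcdA ℓ M ∧
    ((sigma M ℓ : Gamma0 M) : SL(2, ℤ)) 0 1 = -Int.gcdB ℓ M ∧
    ((sigma M ℓ : Gamma0 M) : SL(2, ℤ)) 1 0 = M ∧
    ((sigma M ℓ : Gamma0 M) : SL(2, ℤ)) 1 1 = ℓ ∧
    Int.gcdA ℓ M * (ℓ : ℤ) + Int.gcdB ℓ M * (M : ℤ) = 1 := by
  have h1 : ((Nat.gcd ℓ M : ℕ) : ℤ) = ℓ * Int.gcdA ℓ M + M * Int.gcdB ℓ M :=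
    Int.gcd_eq_gcd_ab ℓ M
  rw [Nat.Coprime] at hℓ
  rw [hℓ] at h1
  have h2 : (Int.gcdA ℓ M) * (ℓ : ℤ) - (-Int.gcdB ℓ M) * (M : ℤ) = 1 := by
    push_cast at h1
    linear_combination -h1
  have h3 : sigma M ℓ = mkGamma0 M (Int.gcdA ℓ M) (-Int.gcdB ℓ M) M ℓ h2 (dvd_refl _) := by
    unfold sigma
    rw [dif_pos h2]
  obtain ⟨e00, e01, e10, e11⟩ := mkGamma0_apply M (Int.gcdA ℓ M) (-Int.gcdB ℓ M) M ℓ h2
    (dvd_refl _)
  rw [h3]
  exact ⟨e00, e01, e10, e11, by linear_combination h2⟩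

theorem dUnit_sigma {ℓ : ℕ} (hℓ : Nat.Coprime ℓ M) :
    ((dUnit M (sigma M ℓ) : (ZMod M)ˣ) : ZMod M) = (ℓ : ZMod M) := by
  rw [coe_dUnit, (sigma_spec hℓ).2.2.2.1]
  push_cast
  rfl

theorem isNormRep_repsT {ℓ : ℕ} [Fact ℓ.Prime] (hℓ : ¬ ℓ ∣ M) (x : OnePoint (ZMod ℓ)) :
    IsNormRep M (repsT M ℓ x) := by
  have hp : ℓ ≠ 0 := (Fact.out : ℓ.Prime).ne_zero
  induction x using OnePoint.rec with
  | coe j => exact isNormRep_heckeMatrix hp _
  | infty =>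
    have hcop : Nat.Coprime ℓ M := (Nat.Prime.coprime_iff_not_dvd Fact.out).mpr hℓ
    obtain ⟨s00, s01, s10, s11, hs⟩ := sigma_spec hcop
    refine ⟨Int.gcdA ℓ M * ℓ, -Int.gcdB ℓ M, M * ℓ, ℓ, Dvd.intro _ rfl,
      ⟨-Int.gcdB ℓ M, by linear_combination hs⟩, ?_⟩
    rw [repsT_infty]
    ext i j
    fin_cases i <;> fin_cases j <;>
      simp only [coe_mul_apply, coe_ιN_apply, val_heckeDiagMatrix hp, Matrix.of_apply,
        Matrix.cons_val', Matrix.cons_val_zero, Matrix.cons_val_one, Matrix.cons_val_fin_one,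
        Fin.zero_eta, Fin.mk_one, s00, s01, s10, s11] <;>
      push_cast <;> ring

/-- The representatives of `T_ℓ` (`ℓ ∤ M` prime) form a coset system for `K`. -/
theorem repsT_system (hK : IsMid M K) {ℓ : ℕ} [Fact ℓ.Prime] (hℓ : ¬ ℓ ∣ M) :
    IsCosetSystem (ιK K) (ιK K) (repsT M ℓ) :=
  system_of_gamma0 hK (repsT_system0 hℓ) (isNormRep_repsT hℓ)

variable {A : Type*} [AddCommGroup A]

theorem TK_eq (hK : IsMid M K) {ℓ : ℕ} [Fact ℓ.Prime] (hℓ : ¬ ℓ ∣ M) (φ : Additive K →+ A) :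
    TK M K ℓ φ = (repsT_system hK hℓ).transfer φ :=
  sysOp_eq _ φ

theorem UK_eq (hK : IsMid M K) {q : ℕ} [Fact q.Prime] (hq : q ∣ M) (φ : Additive K →+ A) :
    UK K q φ = (repsU_system hK hq).transfer φ :=
  sysOp_eq _ φ

/-- The transfer of the twisted system of `Γ₀(M)` is the Hecke transfer `T_ℓ` of S29/S41. -/
theorem repsT_system0_transfer {ℓ : ℕ} [Fact ℓ.Prime] (hℓ : ¬ ℓ ∣ M)
    (φ : Additive (Gamma0 M) →+ A) :
    (repsT_system0 hℓ).transfer φ = heckeTransfer hℓ φ := by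
  rw [heckeTransfer_eq_transfer]
  have key : ∀ (ρ : OnePoint (ZMod ℓ) → GL (Fin 2) ℝ) (e : ρ = fun x => ιN M (tauT M ℓ x) *
      heckeRep ℓ x) (h : IsCosetSystem (ιN M) (ιN M) ρ),
      h.transfer φ = (heckeSystem hℓ).transfer φ := by
    intro ρ e h
    subst e
    exact twist_transfer (heckeSystem hℓ) (tauT M ℓ) φ
  exact key _ (repsT_eq_twist M ℓ) _

/-- `T_ℓ` on `Hom(Γ₀(M), A)` is the Hecke transfer of S29/S41. -/
theorem TK_Gamma0 {ℓ : ℕ} [Fact ℓ.Prime] (hℓ : ¬ ℓ ∣ M) (φ : Additive (Gamma0 M) →+ A) :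
    TK M (Gamma0 M) ℓ φ = heckeTransfer hℓ φ := by
  rw [← repsT_system0_transfer hℓ]
  exact sysOp_eq (repsT_system0 hℓ) φ

/-- **`T_ℓ` commutes with restriction** from `K` to `K' ≤ K`. -/
theorem resK_TK {K' : Subgroup SL(2, ℤ)} (hK : IsMid M K) (hK' : IsMid M K') (h : K' ≤ K)
    {ℓ : ℕ} [Fact ℓ.Prime] (hℓ : ¬ ℓ ∣ M) (φ : Additive K →+ A) :
    TK M K' ℓ (resK h φ) = resK h (TK M K ℓ φ) := by
  rw [TK_eq hK hℓ, TK_eq hK' hℓ]
  exact system_of_gamma0_transfer_res hK hK' h (repsT_system0 hℓ) (isNormRep_repsT hℓ) φ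

/-- **`T_ℓ` commutes with restriction from `Γ₀(M)` to `K`.** -/
theorem resK_heckeTransfer (hK : IsMid M K) {ℓ : ℕ} [Fact ℓ.Prime] (hℓ : ¬ ℓ ∣ M)
    (φ : Additive (Gamma0 M) →+ A) :
    TK M K ℓ (resK hK.le φ) = resK hK.le (heckeTransfer hℓ φ) := by
  rw [← TK_Gamma0 hℓ]
  exact resK_TK (isMid_Gamma0 M) hK hK.le hℓ φ

/-- **`U_q` commutes with restriction** from `K` to `K' ≤ K`. -/
theorem resK_UK {K' : Subgroup SL(2, ℤ)} (hK : IsMid M K) (hK' : IsMid M K') (h : K' ≤ K)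
    {q : ℕ} [Fact q.Prime] (hq : q ∣ M) (φ : Additive K →+ A) :
    UK K' q (resK h φ) = resK h (UK K q φ) := by
  rw [UK_eq hK hq, UK_eq hK' hq]
  exact system_of_gamma0_transfer_res hK hK' h (repsU_system0 hq) (isNormRep_repsU q) φ

/-! ### Additivity and naturality in the coefficients -/

theorem TK_add (hK : IsMid M K) {ℓ : ℕ} [Fact ℓ.Prime] (hℓ : ¬ ℓ ∣ M) (φ ψ : Additive K →+ A) :
    TK M K ℓ (φ + ψ) = TK M K ℓ φ + TK M K ℓ ψ := by
  simp only [TK_eq hK hℓ, IsCosetSystem.transfer_add]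

theorem UK_add (hK : IsMid M K) {q : ℕ} [Fact q.Prime] (hq : q ∣ M) (φ ψ : Additive K →+ A) :
    UK K q (φ + ψ) = UK K q φ + UK K q ψ := by
  simp only [UK_eq hK hq, IsCosetSystem.transfer_add]

theorem TK_comp {B : Type*} [AddCommGroup B] (hK : IsMid M K) {ℓ : ℕ} [Fact ℓ.Prime]
    (hℓ : ¬ ℓ ∣ M) (π : A →+ B) (φ : Additive K →+ A) :
    TK M K ℓ (π.comp φ) = π.comp (TK M K ℓ φ) := by
  simp only [TK_eq hK hℓ, IsCosetSystem.transfer_comp_left]

theorem UK_comp {B : Type*} [AddCommGroup B] (hK : IsMid M K) {q : ℕ} [Fact q.Prime]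
    (hq : q ∣ M) (π : A →+ B) (φ : Additive K →+ A) :
    UK K q (π.comp φ) = π.comp (UK K q φ) := by
  simp only [UK_eq hK hq, IsCosetSystem.transfer_comp_left]

/-- `T_ℓ` as an additive endomorphism of `X_K(A)`. -/
noncomputable def TKHom (hK : IsMid M K) (A : Type*) [AddCommGroup A] {ℓ : ℕ} [Fact ℓ.Prime]
    (hℓ : ¬ ℓ ∣ M) : (Additive K →+ A) →+ (Additive K →+ A) where
  toFun := TK M K ℓ
  map_zero' := by
    have := TK_add hK hℓ (0 : Additive K →+ A) 0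
    rw [add_zero] at this
    exact left_eq_add.mp this
  map_add' := TK_add hK hℓ

/-- `U_q` as an additive endomorphism of `X_K(A)`. -/
noncomputable def UKHom (hK : IsMid M K) (A : Type*) [AddCommGroup A] {q : ℕ} [Fact q.Prime]
    (hq : q ∣ M) : (Additive K →+ A) →+ (Additive K →+ A) where
  toFun := UK K q
  map_zero' := by
    have := UK_add hK hq (0 : Additive K →+ A) 0
    rw [add_zero] at this
    exact left_eq_add.mp this
  map_add' := UK_add hK hq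

@[simp] theorem TKHom_apply (hK : IsMid M K) {ℓ : ℕ} [Fact ℓ.Prime] (hℓ : ¬ ℓ ∣ M)
    (φ : Additive K →+ A) : TKHom hK A hℓ φ = TK M K ℓ φ := rfl

@[simp] theorem UKHom_apply (hK : IsMid M K) {q : ℕ} [Fact q.Prime] (hq : q ∣ M)
    (φ : Additive K →+ A) : UKHom hK A hq φ = UK K q φ := rfl

end UT

end Fermat.Agent.S59.TW.H653
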