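import Mathlib
import Fermat.Agent.S59.TW.H653.Systems

/-!
# S59 / TW-HECKE (helper653): diamond operators on `X_K(A) = Hom(K, A)`, `Γ₁(M) ≤ K ≤ Γ₀(M)`

* `diamond_one`, `diamond_mul`, `diamond_of_mem`, `diamond_congr` : `g ↦ diamond hK g` is an action
  of `Γ₀(M)` which factors through `dUnit : Γ₀(M) → (ℤ/M)ˣ` and is trivial on `K`;
* `dUnit_surjective` : `Γ₀(M) → (ℤ/M)ˣ` is surjective (`M ≠ 0`);
* `diamondU hK u` : the diamond operator `⟨u⟩` of `u ∈ (ℤ/M)ˣ`; `diamondU_mul`, `diamondU_of_mem`;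
* `diamondHom hK A : (ℤ/M)ˣ →* AddMonoid.End X_K(A)`, trivial on `dUnit K`;
* `diamond_transfer` : diamond operators commute with the transfer of every normalised coset
  system of `Γ₀(M)`; `diamond_TK`, `diamond_UK`.
-/

set_option autoImplicit false

namespace Fermat.Agent.S59.TW.H653

open CongruenceSubgroup Matrix.SpecialLinearGroup ModularCurve.Period ModularForm
open Fermat.Agent.S29.H642 Fermat.Agent.S41.H761
open P2MW.S_ModularForm_heckeT_slash_eq_self_of_mem_Gamma0.ModularForm.HeckeSlashInvariance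
open scoped MatrixGroups

variable {M : ℕ} {K : Subgroup SL(2, ℤ)} {A : Type*} [AddCommGroup A]

theorem diamond_add (hK : IsMid M K) (g : Gamma0 M) (φ ψ : Additive K →+ A) :
    diamond hK g (φ + ψ) = diamond hK g φ + diamond hK g ψ := rfl

theorem diamond_zero (hK : IsMid M K) (g : Gamma0 M) :
    diamond hK g (0 : Additive K →+ A) = 0 := rfl

theorem diamond_comp {B : Type*} [AddCommGroup B] (hK : IsMid M K) (g : Gamma0 M) (π : A →+ B)
    (φ : Additive K →+ A) : diamond hK g (π.comp φ) = π.comp (diamond hK g φ) := rfl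

theorem diamond_one (hK : IsMid M K) (φ : Additive K →+ A) : diamond hK 1 φ = φ := by
  refine AddMonoidHom.ext fun h' => ?_
  obtain ⟨h, rfl⟩ : ∃ h : K, Additive.ofMul h = h' := ⟨Additive.toMul h', rfl⟩
  rw [diamond_apply]
  congr 2
  apply Subtype.ext
  simp

theorem diamond_mul (hK : IsMid M K) (g g' : Gamma0 M) (φ : Additive K →+ A) :
    diamond hK (g * g') φ = diamond hK g' (diamond hK g φ) := by
  refine AddMonoidHom.ext fun h' => ?_
  obtain ⟨h, rfl⟩ : ∃ h : K, Additive.ofMul h = h' := ⟨Additive.toMul h', rfl⟩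
  rw [diamond_apply, diamond_apply, diamond_apply]
  congr 2
  apply Subtype.ext
  simp [mul_assoc]

/-- Inner automorphisms act trivially: `⟨g⟩ = 1` for `g ∈ K`. -/
theorem diamond_of_mem (hK : IsMid M K) {g : Gamma0 M} (hg : (g : SL(2, ℤ)) ∈ K)
    (φ : Additive K →+ A) : diamond hK g φ = φ := by
  refine AddMonoidHom.ext fun h' => ?_
  obtain ⟨h, rfl⟩ : ∃ h : K, Additive.ofMul h = h' := ⟨Additive.toMul h', rfl⟩
  rw [diamond_apply]
  let k : K := ⟨(g : SL(2, ℤ)), hg⟩
  have e : conjK hK g h = k * h * k⁻¹ := by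
    apply Subtype.ext
    rfl
  rw [e, ofMul_mul, ofMul_mul, ofMul_inv, map_add, map_add, map_neg]
  abel

/-- `⟨g⟩ = 1` if `d(g) ≡ 1 mod M`. -/
theorem diamond_of_dUnit (hK : IsMid M K) {g : Gamma0 M} (hg : dUnit M g = 1)
    (φ : Additive K →+ A) : diamond hK g φ = φ :=
  diamond_of_mem hK (hK.mem_of_dUnit_eq_one hg) φ

/-- `⟨g⟩ = ⟨g'⟩` if `g⁻¹ g' ∈ K`. -/
theorem diamond_congr_of_mem (hK : IsMid M K) {g g' : Gamma0 M}
    (hg : ((g⁻¹ * g' : Gamma0 M) : SL(2, ℤ)) ∈ K) (φ : Additive K →+ A) :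
    diamond hK g φ = diamond hK g' φ := by
  have h1 : g' = g * (g⁻¹ * g') := by rw [mul_inv_cancel_left]
  rw [h1, diamond_mul, diamond_of_mem hK hg]

/-- `⟨g⟩` only depends on `d(g) mod M`. -/
theorem diamond_congr (hK : IsMid M K) {g g' : Gamma0 M} (hg : dUnit M g = dUnit M g')
    (φ : Additive K →+ A) : diamond hK g φ = diamond hK g' φ := by
  apply diamond_congr_of_mem
  apply hK.mem_of_dUnit_eq_one
  rw [map_mul, map_inv, hg, inv_mul_cancel]

theorem diamond_comm (hK : IsMid M K) (g g' : Gamma0 M) (φ : Additive K →+ A) :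
    diamond hK g (diamond hK g' φ) = diamond hK g' (diamond hK g φ) := by
  rw [← diamond_mul, ← diamond_mul]
  apply diamond_congr
  rw [map_mul, map_mul, mul_comm]

/-! ## Surjectivity of `dUnit` and the action of `(ℤ/M)ˣ` -/

theorem dUnit_sigma_val [NeZero M] (u : (ZMod M)ˣ) : dUnit M (sigma M (u : ZMod M).val) = u := by
  apply Units.ext
  rw [dUnit_sigma (ZMod.val_coe_unit_coprime u), ZMod.natCast_zmod_val]

/-- `Γ₀(M) → (ℤ/M)ˣ` is surjective. -/
theorem dUnit_surjective [NeZero M] : Function.Surjective (dUnit M) :=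
  fun u => ⟨_, dUnit_sigma_val u⟩

/-- The diamond operator `⟨u⟩`, `u ∈ (ℤ/M)ˣ`, on `X_K(A)`: `diamond g` for any `g ∈ Γ₀(M)` with
`d(g) ≡ u mod M`. -/
noncomputable def diamondU (hK : IsMid M K) (u : (ZMod M)ˣ) (φ : Additive K →+ A) :
    Additive K →+ A :=
  diamond hK (sigma M (u : ZMod M).val) φ

theorem diamond_eq_diamondU [NeZero M] (hK : IsMid M K) (g : Gamma0 M) (φ : Additive K →+ A) :
    diamond hK g φ = diamondU hK (dUnit M g) φ := by
  apply diamond_congr
  rw [dUnit_sigma_val]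

theorem diamondU_eq [NeZero M] (hK : IsMid M K) {u : (ZMod M)ˣ} {g : Gamma0 M}
    (hg : dUnit M g = u) (φ : Additive K →+ A) : diamondU hK u φ = diamond hK g φ := by
  rw [diamond_eq_diamondU, hg]

theorem diamondU_one [NeZero M] (hK : IsMid M K) (φ : Additive K →+ A) :
    diamondU hK 1 φ = φ := by
  rw [diamondU_eq hK (g := 1) (map_one _), diamond_one]

theorem diamondU_mul [NeZero M] (hK : IsMid M K) (u v : (ZMod M)ˣ) (φ : Additive K →+ A) :
    diamondU hK (u * v) φ = diamondU hK u (diamondU hK v φ) := by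
  obtain ⟨g, rfl⟩ := dUnit_surjective u
  obtain ⟨g', rfl⟩ := dUnit_surjective v
  rw [← map_mul, ← diamond_eq_diamondU, ← diamond_eq_diamondU, ← diamond_eq_diamondU,
    diamond_mul, diamond_comm]

/-- `⟨d(k)⟩ = 1` for `k ∈ K`. -/
theorem diamondU_of_mem [NeZero M] (hK : IsMid M K) {g : Gamma0 M} (hg : (g : SL(2, ℤ)) ∈ K)
    (φ : Additive K →+ A) : diamondU hK (dUnit M g) φ = φ := by
  rw [← diamond_eq_diamondU, diamond_of_mem hK hg]

theorem diamondU_add (hK : IsMid M K) (u : (ZMod M)ˣ) (φ ψ : Additive K →+ A) :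
    diamondU hK u (φ + ψ) = diamondU hK u φ + diamondU hK u ψ := rfl

theorem diamondU_comp {B : Type*} [AddCommGroup B] (hK : IsMid M K) (u : (ZMod M)ˣ)
    (π : A →+ B) (φ : Additive K →+ A) :
    diamondU hK u (π.comp φ) = π.comp (diamondU hK u φ) := rfl

/-- The diamond action of `(ℤ/M)ˣ` on `X_K(A)` as a monoid homomorphism to the endomorphisms;
it is trivial on the image of `K` (`diamondHom_of_mem`). -/
noncomputable def diamondHom [NeZero M] (hK : IsMid M K) (A : Type*) [AddCommGroup A] :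
    (ZMod M)ˣ →* AddMonoid.End (Additive K →+ A) where
  toFun u :=
    { toFun := diamondU hK u
      map_zero' := rfl
      map_add' := diamondU_add hK u }
  map_one' := by
    refine AddMonoidHom.ext fun φ => ?_
    exact diamondU_one hK φ
  map_mul' u v := by
    refine AddMonoidHom.ext fun φ => ?_
    exact diamondU_mul hK u v φ

@[simp] theorem diamondHom_apply [NeZero M] (hK : IsMid M K) (u : (ZMod M)ˣ)
    (φ : Additive K →+ A) : diamondHom hK A u φ = diamondU hK u φ := rfl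

theorem diamondHom_of_mem [NeZero M] (hK : IsMid M K) {g : Gamma0 M}
    (hg : (g : SL(2, ℤ)) ∈ K) : diamondHom hK A (dUnit M g) = 1 := by
  refine AddMonoidHom.ext fun φ => ?_
  exact diamondU_of_mem hK hg φ

/-- For `K = Γ_H(M)` the diamond action is trivial on `H`. -/
theorem diamondHom_GammaH [NeZero M] {H : Subgroup (ZMod M)ˣ} {u : (ZMod M)ˣ} (hu : u ∈ H) :
    diamondHom (isMid_GammaH M H) A u = 1 := by
  obtain ⟨g, rfl⟩ := dUnit_surjective u
  exact diamondHom_of_mem _ (mem_GammaH.mpr ⟨g.2, hu⟩)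

/-! ## Diamond operators commute with normalised coset systems -/

section Commute

variable {I : Type*} [Fintype I] {ρ : I → GL (Fin 2) ℝ}

/-- **Diamond operators commute with the transfer of a normalised coset system.** -/
theorem diamond_transfer (hK : IsMid M K) (h₀ : IsCosetSystem (ιN M) (ιN M) ρ)
    (hρ : ∀ i, IsNormRep M (ρ i)) (g : Gamma0 M) (φ : Additive K →+ A) :
    (system_of_gamma0 hK h₀ hρ).transfer (diamond hK g φ) =
      diamond hK g ((system_of_gamma0 hK h₀ hρ).transfer φ) := by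
  set hH := system_of_gamma0 hK h₀ hρ with hHdef
  -- `m i = g⁻¹ * coc₀ i g ∈ K`
  have hm : ∀ i, ((g⁻¹ * h₀.coc i g : Gamma0 M) : SL(2, ℤ)) ∈ K := by
    intro i
    apply hK.mem_of_dUnit_eq_one
    rw [map_mul, map_inv, dUnit_coc h₀ hρ, inv_mul_cancel]
  let m : I → K := fun i => ⟨_, hm i⟩
  have hmcoe : ∀ i, inclK hK (m i) = g⁻¹ * h₀.coc i g := fun i => rfl
  refine AddMonoidHom.ext fun k' => ?_
  obtain ⟨k, rfl⟩ : ∃ k : K, Additive.ofMul k = k' := ⟨Additive.toMul k', rfl⟩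
  rw [diamond_apply, IsCosetSystem.transfer_apply, IsCosetSystem.transfer_apply]
  -- the key identity
  have cocinv : ∀ (a : I) (x : Gamma0 M), h₀.coc a x⁻¹ = (h₀.coc (h₀.act a x⁻¹) x)⁻¹ := by
    intro a x
    have := h₀.coc_mul a x⁻¹ x
    rw [inv_mul_cancel, h₀.coc_one] at this
    exact eq_inv_of_mul_eq_one_left this.symm
  have e2 : ∀ x : K, inclK hK (conjK hK g x) = g * inclK hK x * g⁻¹ := fun _ => rfl
  have key : ∀ i, hH.coc i (conjK hK g k) =
      conjK hK g (m i * hH.coc (h₀.act i g) k * (m (hH.act i (conjK hK g k)))⁻¹) := by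
    intro i
    apply inclK_injective hK
    have hj : hH.act i (conjK hK g k) = h₀.act i (g * inclK hK k * g⁻¹) := by
      rw [system_of_gamma0_act hK h₀ hρ, e2]
    have hL : inclK hK (hH.coc i (conjK hK g k)) = h₀.coc i (g * inclK hK k * g⁻¹) := by
      rw [system_of_gamma0_coc hK h₀ hρ, e2]
    have hc2 : inclK hK (hH.coc (h₀.act i g) k) = h₀.coc (h₀.act i g) (inclK hK k) :=
      system_of_gamma0_coc hK h₀ hρ _ _
    have hR : inclK hK (conjK hK g
        (m i * hH.coc (h₀.act i g) k * (m (hH.act i (conjK hK g k)))⁻¹)) =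
        g * ((g⁻¹ * h₀.coc i g) * h₀.coc (h₀.act i g) (inclK hK k) *
          (g⁻¹ * h₀.coc (h₀.act i (g * inclK hK k * g⁻¹)) g)⁻¹) * g⁻¹ := by
      rw [e2, (inclK hK).map_mul, (inclK hK).map_mul, (inclK hK).map_inv, hmcoe, hmcoe, hc2,
        hj]
    rw [hL, hR, h₀.coc_mul, h₀.coc_mul, cocinv]
    have hact : h₀.act (h₀.act i (g * inclK hK k)) g⁻¹ = h₀.act i (g * inclK hK k * g⁻¹) :=
      (h₀.act_mul i (g * inclK hK k) g⁻¹).symm
    rw [hact]
    group
  have hconj : ∀ a b c : K, conjK hK g (a * b * c⁻¹) =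
      conjK hK g a * conjK hK g b * (conjK hK g c)⁻¹ := by
    intro a b c
    rw [(conjK hK g).map_mul, (conjK hK g).map_mul, (conjK hK g).map_inv]
  have hsum : ∀ i, φ (Additive.ofMul (hH.coc i (conjK hK g k))) =
      diamond hK g φ (Additive.ofMul (m i)) +
        diamond hK g φ (Additive.ofMul (hH.coc (h₀.act i g) k)) -
        diamond hK g φ (Additive.ofMul (m (hH.act i (conjK hK g k)))) := by
    intro i
    rw [key i, diamond_apply, diamond_apply, diamond_apply, hconj, ofMul_mul,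
      ofMul_mul, ofMul_inv, map_add, map_add, map_neg, sub_eq_add_neg]
  simp only [hsum, Finset.sum_add_distrib, Finset.sum_sub_distrib]
  have hp1 : ∑ i, diamond hK g φ (Additive.ofMul (m (hH.act i (conjK hK g k)))) =
      ∑ i, diamond hK g φ (Additive.ofMul (m i)) :=
    Equiv.sum_comp (hH.actEquiv (conjK hK g k))
      (fun i => diamond hK g φ (Additive.ofMul (m i)))
  have hp2 : ∑ i, diamond hK g φ (Additive.ofMul (hH.coc (h₀.act i g) k)) =
      ∑ i, diamond hK g φ (Additive.ofMul (hH.coc i k)) :=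
    Equiv.sum_comp (h₀.actEquiv g)
      (fun i => diamond hK g φ (Additive.ofMul (hH.coc i k)))
  rw [hp1, hp2]
  abel

theorem diamond_TK (hK : IsMid M K) {ℓ : ℕ} [Fact ℓ.Prime] (hℓ : ¬ ℓ ∣ M) (g : Gamma0 M)
    (φ : Additive K →+ A) :
    TK M K ℓ (diamond hK g φ) = diamond hK g (TK M K ℓ φ) := by
  rw [TK_eq hK hℓ, TK_eq hK hℓ]
  exact diamond_transfer hK (repsT_system0 hℓ) (isNormRep_repsT hℓ) g φ

theorem diamond_UK (hK : IsMid M K) {q : ℕ} [Fact q.Prime] (hq : q ∣ M) (g : Gamma0 M)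
    (φ : Additive K →+ A) :
    UK K q (diamond hK g φ) = diamond hK g (UK K q φ) := by
  rw [UK_eq hK hq, UK_eq hK hq]
  exact diamond_transfer hK (repsU_system0 hq) (isNormRep_repsU q) g φ

theorem diamondU_TK (hK : IsMid M K) {ℓ : ℕ} [Fact ℓ.Prime] (hℓ : ¬ ℓ ∣ M) (u : (ZMod M)ˣ)
    (φ : Additive K →+ A) :
    TK M K ℓ (diamondU hK u φ) = diamondU hK u (TK M K ℓ φ) :=
  diamond_TK hK hℓ _ φ

theorem diamondU_UK (hK : IsMid M K) {q : ℕ} [Fact q.Prime] (hq : q ∣ M) (u : (ZMod M)ˣ)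
    (φ : Additive K →+ A) :
    UK K q (diamondU hK u φ) = diamondU hK u (UK K q φ) :=
  diamond_UK hK hq _ φ

end Commute

end Fermat.Agent.S59.TW.H653
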