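import Mathlib
import Fermat.Agent.S59.MFree.H587.HeckeKer
import Fermat.Agent.S59.TW.H653.Comm.Main
import Fermat.Agent.S59.TW.H653.Diamond

/-!
# S59 / TW-HECKE (helper653): bridge to block M-FREE (`MFree.kerSub κ`, `H587.heckeKer`)

For `κ : Γ₀(M) →* D` trivial on `{d ≡ 1 mod M}` and `Γ' = MFree.kerSub κ`:

* `isMid_kerSub`       : `Γ₁(M) ≤ Γ' ≤ Γ₀(M)`;
* `heckeKer_eq_TK`     : helper587's `T_l` on `Hom(Γ', A)` is `TK M Γ' l`;
* `conjAct_eq_diamond` : `MFree.conjAct κ g = diamond _ g⁻¹`;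
* `heckeKer_comm`      : **the operators `H587.heckeKer` commute**; `heckeKerLin_comm`;
* `heckeKer_UK_comm`   : they commute with `U_q`, `q ∣ M`.
-/

set_option autoImplicit false

namespace Fermat.Agent.S59.TW.H653

open CongruenceSubgroup Matrix.SpecialLinearGroup ModularCurve.Period ModularForm
open Fermat.Agent.S29.H642 Fermat.Agent.S41.H761
open Fermat.Agent.S59.MFree Fermat.Agent.S59.MFree.H587 Fermat.Agent.S59.MFree.H941
open P2MW.S_ModularForm_heckeT_slash_eq_self_of_mem_Gamma0.ModularForm.HeckeSlashInvariance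
open scoped MatrixGroups

section General

variable {𝒢 Γ Γ' : Type*} [Group 𝒢] [Group Γ] [Group Γ'] {I : Type*} [Fintype I]
variable {A : Type*} [AddCommGroup A]

/-- The transfer of a coset system only depends on the values of the embeddings and of the
representatives. -/
theorem transfer_congr {ι κ : Γ →* 𝒢} {ι' κ' : Γ' →* 𝒢} {ρ ρ' : I → 𝒢}
    (h : IsCosetSystem ι ι' ρ) (h' : IsCosetSystem κ κ' ρ') (e : ∀ g, ι g = κ g)
    (e' : ∀ g, ι' g = κ' g) (eρ : ∀ i, ρ i = ρ' i) (φ : Additive Γ →+ A) :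
    h.transfer φ = h'.transfer φ := by
  refine AddMonoidHom.ext fun g' => ?_
  obtain ⟨g, rfl⟩ : ∃ g : Γ', Additive.ofMul g = g' := ⟨Additive.toMul g', rfl⟩
  rw [IsCosetSystem.transfer_apply, IsCosetSystem.transfer_apply]
  refine Finset.sum_congr rfl fun i _ => ?_
  congr 2
  symm
  apply h'.coc_eq (j := h.act i g)
  rw [← eρ, ← eρ, ← e, ← e']
  exact h.spec i g

end General

variable {M : ℕ} {D : Type} [Group D]

theorem isMid_kerSub (κ : Gamma0 M →* D)
    (hΓ1 : ∀ γ : Gamma0 M, ((((γ : SL(2, ℤ)) 1 1 : ℤ)) : ZMod M) = 1 → κ γ = 1) :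
    IsMid M (kerSub κ) :=
  isMid_of_ker κ (fun γ hγ => hΓ1 γ ((Gamma1_mem M _).mp hγ).2.1)

variable {l : ℕ} [Fact l.Prime]

theorem isNormalising_tauT (hl : ¬ l ∣ M) : IsNormalising M l (tauT M l) (l : ZMod M) := by
  have hcop : Nat.Coprime l M := (Nat.Prime.coprime_iff_not_dvd Fact.out).mpr hl
  intro x
  induction x using OnePoint.rec with
  | infty =>
    show eisD M (sigma M l) * ((eisU l OnePoint.infty : ℕ) : ZMod M) = _
    rw [eisU_infty, Nat.cast_one, mul_one]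
    exact dUnit_sigma hcop
  | coe j =>
    show eisD M (1 : Gamma0 M) * ((eisU l (j : OnePoint (ZMod l)) : ℕ) : ZMod M) = _
    rw [eisD_one, eisU_coe, one_mul]

variable (hl : ¬ l ∣ M) (κ : Gamma0 M →* D)
variable (hΓ1 : ∀ γ : Gamma0 M, ((((γ : SL(2, ℤ)) 1 1 : ℤ)) : ZMod M) = 1 → κ γ = 1)
variable {A : Type*} [AddCommGroup A]

/-- **helper587's `T_l` on `Hom(ker κ, A)` is `TK M (ker κ) l`.** -/
theorem heckeKer_eq_TK (φ : Additive (kerSub κ) →+ A) :
    heckeKer hl κ hΓ1 φ = TK M (kerSub κ) l φ := by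
  unfold heckeKer
  rw [heckeKerOf_congr hl κ hΓ1 (wStd hl) (l : ZMod M) (isNormalising_wStd hl) (tauT M l)
    (isNormalising_tauT hl) φ, heckeKerOf_eq, TK_eq (isMid_kerSub κ hΓ1) hl]
  exact transfer_congr _ _ (fun _ => rfl) (fun _ => rfl)
    (fun i => (congrFun (repsT_eq_twist M l) i).symm) φ

/-- The diamond operators of block M-FREE are those of TW-HECKE (inverse convention). -/
theorem conjAct_eq_diamond (g : Gamma0 M) (φ : Additive (kerSub κ) →+ A) :
    conjAct κ g φ = diamond (isMid_kerSub κ hΓ1) g⁻¹ φ := by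
  refine AddMonoidHom.ext fun k' => ?_
  obtain ⟨k, rfl⟩ : ∃ k : kerSub κ, Additive.ofMul k = k' := ⟨Additive.toMul k', rfl⟩
  rw [conjAct_apply, diamond_apply]
  congr 2
  apply Subtype.ext
  simp

/-- **The Hecke operators `H587.heckeKer` commute.** -/
theorem heckeKer_comm {l' : ℕ} [Fact l'.Prime] (hl' : ¬ l' ∣ M)
    (φ : Additive (kerSub κ) →+ A) :
    heckeKer hl' κ hΓ1 (heckeKer hl κ hΓ1 φ) = heckeKer hl κ hΓ1 (heckeKer hl' κ hΓ1 φ) := by
  simp only [heckeKer_eq_TK]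
  exact TK_comm (isMid_kerSub κ hΓ1) hl hl' φ

/-- The `O`-linear Hecke operators `H587.heckeKerLin` commute. -/
theorem heckeKerLin_comm {l' : ℕ} [Fact l'.Prime] (hl' : ¬ l' ∣ M) (O : Type*) [CommRing O]
    (φ : Additive (kerSub κ) →+ O) :
    heckeKerLin hl' κ hΓ1 O (heckeKerLin hl κ hΓ1 O φ) =
      heckeKerLin hl κ hΓ1 O (heckeKerLin hl' κ hΓ1 O φ) :=
  heckeKer_comm hl κ hΓ1 hl' φ

/-- `H587.heckeKer` commutes with `U_q`, `q ∣ M`. -/
theorem heckeKer_UK_comm {q : ℕ} [Fact q.Prime] (hq : q ∣ M) (φ : Additive (kerSub κ) →+ A) :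
    UK (kerSub κ) q (heckeKer hl κ hΓ1 φ) = heckeKer hl κ hΓ1 (UK (kerSub κ) q φ) := by
  simp only [heckeKer_eq_TK]
  exact TK_UK_comm (isMid_kerSub κ hΓ1) hl hq φ

end Fermat.Agent.S59.TW.H653
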