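import Mathlib
import Fermat.Agent.S59.TW.H653.Bridge587

/-!
# S59 / TW-HECKE (helper653): `U_q` on `Hom(ker κ, A)` in the vocabulary of block M-FREE

`κ : Γ₀(M) →* D` trivial on `{d ≡ 1 mod M}`, `Γ' = MFree.kerSub κ`, `q ∣ M` prime.

* `UqKer q κ` = `UK (kerSub κ) q` : `U_q` on `Hom(Γ', A)` (representatives `[[1, j], [0, q]]`),
  as an additive endomorphism; `UqKerLin` : the `O`-linear version;
* `cor_UqKer`      : `cor ∘ U_q = U_q ∘ cor` (`U_q` on `Hom(Γ₀(M), A)` is `UK (Gamma0 M) q`);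
* `UqKer_res`      : `U_q ∘ res = res ∘ U_q`;
* `UqKer_conjAct`  : `U_q` commutes with the diamond operators `conjAct κ g`;
* `UqKer_heckeKer` : `U_q` commutes with `H587.heckeKer` (`T_l`, `l ∤ M`);
* `UqKer_comm`     : `U_q U_q' = U_q' U_q`;
* `cor_transfer`   : the general statement for every normalised coset system of `Γ₀(M)`.
-/

set_option autoImplicit false

namespace Fermat.Agent.S59.TW.H653

open CongruenceSubgroup Matrix.SpecialLinearGroup ModularCurve.Period ModularForm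
open Fermat.Agent.S29.H642 Fermat.Agent.S41.H761
open Fermat.Agent.S59.MFree Fermat.Agent.S59.MFree.H587 Fermat.Agent.S59.MFree.H941
open P2MW.S_ModularForm_heckeT_slash_eq_self_of_mem_Gamma0.ModularForm.HeckeSlashInvariance
open scoped MatrixGroups

variable {M : ℕ} {D : Type} [Group D]
variable (κ : Gamma0 M →* D)
variable (hΓ1 : ∀ γ : Gamma0 M, ((((γ : SL(2, ℤ)) 1 1 : ℤ)) : ZMod M) = 1 → κ γ = 1)
variable {A : Type*} [AddCommGroup A]

section General

variable {I : Type*} {ρ : I → GL (Fin 2) ℝ}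

include hΓ1 in
/-- The cocycle of a normalised coset system of `Γ₀(M)` preserves `κ`. -/
theorem preservesKappa_of_normRep (h₀ : IsCosetSystem (ιN M) (ιN M) ρ)
    (hρ : ∀ i, IsNormRep M (ρ i)) : PreservesKappa h₀ κ :=
  fun i g => kappa_congr κ hΓ1 (congrArg Units.val (dUnit_coc h₀ hρ i g))

variable [Fintype I]

/-- **`cor` commutes with the transfer of every normalised coset system of `Γ₀(M)`.** -/
theorem cor_transfer [Finite D] (h₀ : IsCosetSystem (ιN M) (ιN M) ρ)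
    (hρ : ∀ i, IsNormRep M (ρ i)) (φ : Additive (kerSub κ) →+ A) :
    cor κ ((system_of_gamma0 (isMid_kerSub κ hΓ1) h₀ hρ).transfer φ) =
      h₀.transfer (cor κ φ) := by
  have := finiteIndex_range_inclusion κ
  have key := transferAlong_restrict h₀ (preservesKappa_of_normRep κ hΓ1 h₀ hρ)
    (Subgroup.inclusion (kerSub_le κ)) (Subgroup.inclusion_injective _)
    (mem_range_inclusion_iff κ) φ
  rw [← transfer_congr (restrictSystem h₀ (preservesKappa_of_normRep κ hΓ1 h₀ hρ)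
    (Subgroup.inclusion (kerSub_le κ)) (Subgroup.inclusion_injective _)
    (mem_range_inclusion_iff κ)) (system_of_gamma0 (isMid_kerSub κ hΓ1) h₀ hρ)
    (fun _ => rfl) (fun _ => rfl) (fun _ => rfl) φ]
  exact key

end General

variable {q : ℕ} [Fact q.Prime]

/-- `U_q` on `Hom(Γ₀(M), A)` is the transfer of the system `repsU_system0`. -/
theorem UK_Gamma0_eq (hq : q ∣ M) (ψ : Additive (Gamma0 M) →+ A) :
    UK (Gamma0 M) q ψ = (repsU_system0 hq).transfer ψ :=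
  sysOp_eq (repsU_system0 hq) ψ

/-- **`U_q`** on `Hom(ker κ, A)` as an additive endomorphism. -/
noncomputable def UqKer (hq : q ∣ M) :
    (Additive (kerSub κ) →+ A) →+ (Additive (kerSub κ) →+ A) :=
  UKHom (isMid_kerSub κ hΓ1) A hq

@[simp] theorem UqKer_apply (hq : q ∣ M) (φ : Additive (kerSub κ) →+ A) :
    UqKer κ hΓ1 hq φ = UK (kerSub κ) q φ := rfl

/-- `cor ∘ U_q = U_q ∘ cor`. -/
theorem cor_UqKer [Finite D] (hq : q ∣ M) (φ : Additive (kerSub κ) →+ A) :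
    cor κ (UqKer κ hΓ1 hq φ) = UK (Gamma0 M) q (cor κ φ) := by
  rw [UqKer_apply, UK_eq (isMid_kerSub κ hΓ1) hq, UK_Gamma0_eq hq]
  exact cor_transfer κ hΓ1 (repsU_system0 hq) (isNormRep_repsU q) φ

/-- `U_q ∘ res = res ∘ U_q`. -/
theorem UqKer_res (hq : q ∣ M) (y : Additive (Gamma0 M) →+ A) :
    UqKer κ hΓ1 hq (res κ y) = res κ (UK (Gamma0 M) q y) :=
  resK_UK (isMid_Gamma0 M) (isMid_kerSub κ hΓ1) (kerSub_le κ) hq y

/-- `U_q` commutes with the diamond operators. -/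
theorem UqKer_conjAct (hq : q ∣ M) (g : Gamma0 M) (φ : Additive (kerSub κ) →+ A) :
    UqKer κ hΓ1 hq (conjAct κ g φ) = conjAct κ g (UqKer κ hΓ1 hq φ) := by
  rw [conjAct_eq_diamond κ hΓ1, conjAct_eq_diamond κ hΓ1]
  exact diamond_UK (isMid_kerSub κ hΓ1) hq g⁻¹ φ

/-- `U_q` commutes with `T_l`. -/
theorem UqKer_heckeKer (hq : q ∣ M) {l : ℕ} [Fact l.Prime] (hl : ¬ l ∣ M)
    (φ : Additive (kerSub κ) →+ A) :
    UqKer κ hΓ1 hq (heckeKer hl κ hΓ1 φ) = heckeKer hl κ hΓ1 (UqKer κ hΓ1 hq φ) :=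
  heckeKer_UK_comm hl κ hΓ1 hq φ

/-- `U_q` and `U_q'` commute. -/
theorem UqKer_comm (hq : q ∣ M) {q' : ℕ} [Fact q'.Prime] (hq' : q' ∣ M)
    (φ : Additive (kerSub κ) →+ A) :
    UqKer κ hΓ1 hq' (UqKer κ hΓ1 hq φ) = UqKer κ hΓ1 hq (UqKer κ hΓ1 hq' φ) :=
  UK_comm (isMid_kerSub κ hΓ1) hq hq' φ

/-- **`U_q`**, `O`-linear. -/
noncomputable def UqKerLin (hq : q ∣ M) (O : Type*) [CommRing O] :
    (Additive (kerSub κ) →+ O) →ₗ[O] (Additive (kerSub κ) →+ O) where
  toFun φ := UqKer κ hΓ1 hq φ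
  map_add' := map_add _
  map_smul' a φ := by
    have h1 : a • φ = (AddMonoidHom.mulLeft a).comp φ := by
      ext h
      rfl
    have h2 : a • UqKer κ hΓ1 hq φ = (AddMonoidHom.mulLeft a).comp (UqKer κ hΓ1 hq φ) := by
      ext h
      rfl
    rw [RingHom.id_apply, h1, h2, UqKer_apply, UqKer_apply]
    exact UK_comp (isMid_kerSub κ hΓ1) hq _ φ

@[simp] theorem UqKerLin_apply (hq : q ∣ M) (O : Type*) [CommRing O]
    (φ : Additive (kerSub κ) →+ O) : UqKerLin κ hΓ1 hq O φ = UqKer κ hΓ1 hq φ := rfl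

/-- `U_q` on `Hom(Γ₀(M), O)`, `O`-linear. -/
noncomputable def Uq0Lin (hq : q ∣ M) (O : Type*) [CommRing O] :
    (Additive (Gamma0 M) →+ O) →ₗ[O] (Additive (Gamma0 M) →+ O) where
  toFun φ := UK (Gamma0 M) q φ
  map_add' := UK_add (isMid_Gamma0 M) hq
  map_smul' a φ := by
    have h1 : a • φ = (AddMonoidHom.mulLeft a).comp φ := by
      ext h
      rfl
    have h2 : a • UK (Gamma0 M) q φ = (AddMonoidHom.mulLeft a).comp (UK (Gamma0 M) q φ) := by
      ext h
      rfl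
    rw [RingHom.id_apply, h1, h2]
    exact UK_comp (isMid_Gamma0 M) hq _ φ

@[simp] theorem Uq0Lin_apply (hq : q ∣ M) (O : Type*) [CommRing O]
    (φ : Additive (Gamma0 M) →+ O) : Uq0Lin hq O φ = UK (Gamma0 M) q φ := rfl

end Fermat.Agent.S59.TW.H653
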