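import Mathlib
import Fermat.Agent.S41.H761.CosetSystem

/-!
# S59 / TW-HECKE (helper653): the cycle formula for the transfer of a coset system

* `sum_eq_zero_of_cycle_sums` : for a permutation `σ` of a finite type, a sum over the whole type
  vanishes as soon as the sums over all cycles vanish;
* `IsCosetSystem.act_pow`, `IsCosetSystem.map_coc_pow` : iterates of the action and the additive
  cocycle formula `φ (coc i (g ^ n)) = ∑_{k < n} φ (coc (i · g ^ k) g)`;
* `IsCosetSystem.transfer_eq_zero_of_cycles` : if `φ` kills every `c` with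
  `ρ i * ι' (g ^ m) = ι c * ρ i` (`m ≥ 1`), then the transfer of `φ` kills `g`.
-/

set_option autoImplicit false

namespace Fermat.Agent.S59.TW.H653

open Fermat.Agent.S41.H761

section Perm

variable {I A : Type*} [AddCommGroup A]

theorem isPeriodicPt_perm [Finite I] (σ : Equiv.Perm I) (i : I) :
    0 < Function.minimalPeriod σ i := by
  have h1 : 0 < orderOf σ := orderOf_pos σ
  have h2 : Function.IsPeriodicPt σ (orderOf σ) i := by
    show (⇑σ)^[orderOf σ] i = i
    rw [Equiv.Perm.iterate_eq_pow, pow_orderOf_eq_one]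
    rfl
  exact h2.minimalPeriod_pos h1

theorem sum_eq_zero_of_cycle_sums_aux [Finite I] (σ : Equiv.Perm I) (f : I → A)
    (H : ∀ i, ∑ k ∈ Finset.range (Function.minimalPeriod σ i), f ((⇑σ)^[k] i) = 0) :
    ∀ s : Finset I, (∀ i ∈ s, σ i ∈ s) → ∑ i ∈ s, f i = 0 := by
  classical
  intro s
  induction s using Finset.strongInduction with
  | H s ih =>
    intro hs
    rcases s.eq_empty_or_nonempty with rfl | ⟨i₀, hi₀⟩
    · simp
    set m := Function.minimalPeriod σ i₀ with hm
    have hmpos : 0 < m := isPeriodicPt_perm σ i₀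
    have hper : (⇑σ)^[m] i₀ = i₀ := Function.iterate_minimalPeriod
    set o : Finset I := (Finset.range m).image (fun k => (⇑σ)^[k] i₀) with ho
    have hiter : ∀ k, (⇑σ)^[k] i₀ ∈ s := by
      intro k
      induction k with
      | zero => exact hi₀
      | succ k ihk =>
        rw [Function.iterate_succ_apply']
        exact hs _ ihk
    have hos : o ⊆ s := by
      intro j hj
      obtain ⟨k, -, rfl⟩ := Finset.mem_image.mp hj
      exact hiter k
    have hi₀o : i₀ ∈ o := Finset.mem_image.mpr ⟨0, Finset.mem_range.mpr hmpos, rfl⟩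
    have hmem : ∀ k, (⇑σ)^[k] i₀ ∈ o := by
      intro k
      refine Finset.mem_image.mpr ⟨k % m, Finset.mem_range.mpr (Nat.mod_lt _ hmpos), ?_⟩
      exact (Function.iterate_mod_minimalPeriod_eq (f := ⇑σ) (x := i₀) (n := k))
    have hsd : ∀ i ∈ s \ o, σ i ∈ s \ o := by
      intro i hi
      obtain ⟨his, hio⟩ := Finset.mem_sdiff.mp hi
      refine Finset.mem_sdiff.mpr ⟨hs i his, fun hσ => hio ?_⟩
      obtain ⟨k, -, hk⟩ := Finset.mem_image.mp hσ
      -- `σ i = σ^k i₀`, so `i = σ^(k + m - 1) i₀`
      have h1 : i = (⇑σ)^[k + (m - 1)] i₀ := by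
        apply σ.injective
        rw [← hk, ← Function.iterate_succ_apply' (⇑σ)]
        have : (k + (m - 1)).succ = k + m := by omega
        rw [this, Function.iterate_add_apply, hper]
      rw [h1]
      exact hmem _
    have hlt : s \ o ⊂ s := by
      refine ⟨Finset.sdiff_subset, fun hsub => ?_⟩
      have := hsub hi₀
      exact (Finset.mem_sdiff.mp this).2 hi₀o
    have h2 := ih (s \ o) hlt hsd
    have h3 : ∑ i ∈ o, f i = 0 := by
      rw [ho, Finset.sum_image]
      · exact H i₀
      · intro a ha b hb hab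
        exact (Function.iterate_eq_iterate_iff_of_lt_minimalPeriod
          (Finset.mem_range.mp ha) (Finset.mem_range.mp hb)).mp hab
    rw [← Finset.sum_sdiff hos, h2, h3, add_zero]

/-- For a permutation `σ` of a finite type, a sum over the whole type vanishes as soon as the
sums over all cycles vanish. -/
theorem sum_eq_zero_of_cycle_sums [Fintype I] (σ : Equiv.Perm I) (f : I → A)
    (H : ∀ i, ∑ k ∈ Finset.range (Function.minimalPeriod σ i), f ((⇑σ)^[k] i) = 0) :
    ∑ i, f i = 0 :=
  sum_eq_zero_of_cycle_sums_aux σ f H Finset.univ (fun _ _ => Finset.mem_univ _)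

end Perm

section System

variable {𝒢 Γ Γ' : Type*} [Group 𝒢] [Group Γ] [Group Γ'] {I : Type*}
variable {ι : Γ →* 𝒢} {ι' : Γ' →* 𝒢} {ρ : I → 𝒢}

theorem act_pow (h : IsCosetSystem ι ι' ρ) (i : I) (g : Γ') (n : ℕ) :
    h.act i (g ^ n) = (⇑(h.actEquiv g))^[n] i := by
  induction n with
  | zero => rw [pow_zero, h.act_one]; rfl
  | succ n ih =>
    rw [pow_succ, h.act_mul, ih, Function.iterate_succ_apply']
    rfl

variable {A : Type*} [AddCommGroup A]

/-- The additive cocycle formula for powers. -/
theorem map_coc_pow (h : IsCosetSystem ι ι' ρ) (φ : Additive Γ →+ A) (i : I) (g : Γ') (n : ℕ) :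
    φ (Additive.ofMul (h.coc i (g ^ n))) =
      ∑ k ∈ Finset.range n, φ (Additive.ofMul (h.coc ((⇑(h.actEquiv g))^[k] i) g)) := by
  induction n with
  | zero => simp [h.coc_one]
  | succ n ih =>
    rw [pow_succ, h.coc_mul, ofMul_mul, map_add, ih, Finset.sum_range_succ, act_pow]

/-- **Cycle formula, vanishing form.**  If `φ` kills every `c` such that
`ρ i * ι' (g ^ m) = ι c * ρ i` for some `i` and `m ≥ 1`, then the transfer of `φ` kills `g`. -/
theorem transfer_eq_zero_of_cycles [Fintype I] (h : IsCosetSystem ι ι' ρ) (φ : Additive Γ →+ A)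
    (g : Γ')
    (H : ∀ (i : I) (m : ℕ) (c : Γ), 0 < m → ρ i * ι' (g ^ m) = ι c * ρ i →
      φ (Additive.ofMul c) = 0) :
    h.transfer φ (Additive.ofMul g) = 0 := by
  rw [h.transfer_apply]
  refine sum_eq_zero_of_cycle_sums (h.actEquiv g) _ fun i => ?_
  rw [← map_coc_pow h φ i g]
  set m := Function.minimalPeriod (⇑(h.actEquiv g)) i with hm
  have hmpos : 0 < m := isPeriodicPt_perm _ i
  have hact : h.act i (g ^ m) = i := by
    rw [act_pow]
    exact Function.iterate_minimalPeriod
  have hs := h.spec i (g ^ m)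
  rw [hact] at hs
  exact H i m _ hmpos hs

end System

end Fermat.Agent.S59.TW.H653
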