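import Mathlib
import Fermat.Agent.S59.TW.H653.Cycle
import Fermat.Agent.S59.TW.H653.Defs
import Fermat.Agent.S41.H581.TransferCusp

/-!
# S59 / TW-HECKE (helper653): the Hecke operators preserve cuspidal classes

`IsCuspidalK φ` (`φ : Hom(K, A)`): `φ` kills the elements with `(tr γ)² = 4` and the elements of
finite order (definitionally the same as `S41.Spec.IsCuspidalOn K φ`).

* `isCuspidalK_transfer` : the transfer of ANY coset system between subgroups of `SL(2,ℤ)`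
  (embedded in `GL(2,ℝ)`) preserves cuspidal classes;
* `isCuspidalK_sysOp`, `isCuspidalK_TK`, `isCuspidalK_UK` : hence `T_ℓ`, `U_q` do (no hypothesis);
* `isCuspidalK_diamond`, `isCuspidalK_resK`, `isCuspidalK_coresK` : diamond operators,
  restriction, corestriction.
-/

set_option autoImplicit false

namespace Fermat.Agent.S59.TW.H653

open CongruenceSubgroup Matrix.SpecialLinearGroup ModularCurve.Period ModularForm
open Fermat.Agent.S29.H642 Fermat.Agent.S41.H761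
open P2MW.S_ModularForm_heckeT_slash_eq_self_of_mem_Gamma0.ModularForm.HeckeSlashInvariance
open scoped MatrixGroups

/-! ## Traces and orders under conjugation in `GL(2, ℝ)` -/

theorem coe_mapGL_eq_map (g : SL(2, ℤ)) :
    ((mapGL ℝ g : GL (Fin 2) ℝ) : Matrix (Fin 2) (Fin 2) ℝ) =
      (g : Matrix (Fin 2) (Fin 2) ℤ).map (Int.castRingHom ℝ) := by
  ext i j
  rw [coe_mapGL_apply]
  rfl

theorem trace_mapGL (g : SL(2, ℤ)) :
    ((mapGL ℝ g : GL (Fin 2) ℝ) : Matrix (Fin 2) (Fin 2) ℝ).trace =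
      (((g : Matrix (Fin 2) (Fin 2) ℤ).trace : ℤ) : ℝ) := by
  rw [Matrix.trace_fin_two, Matrix.trace_fin_two, coe_mapGL_apply, coe_mapGL_apply]
  push_cast
  rfl

/-- If `ρ * g = c * ρ` in `GL(2, ℝ)` with `g, c ∈ SL(2, ℤ)`, then `tr c = tr g`. -/
theorem trace_eq_of_conj {ρ : GL (Fin 2) ℝ} {g c : SL(2, ℤ)}
    (e : ρ * mapGL ℝ g = mapGL ℝ c * ρ) :
    (c : Matrix (Fin 2) (Fin 2) ℤ).trace = (g : Matrix (Fin 2) (Fin 2) ℤ).trace := by
  have h1 : mapGL ℝ c = ρ * mapGL ℝ g * ρ⁻¹ := by rw [e, mul_inv_cancel_right]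
  have h2 : ((mapGL ℝ c : GL (Fin 2) ℝ) : Matrix (Fin 2) (Fin 2) ℝ).trace =
      ((mapGL ℝ g : GL (Fin 2) ℝ) : Matrix (Fin 2) (Fin 2) ℝ).trace := by
    rw [h1, Units.val_mul, Units.val_mul, Matrix.trace_mul_comm, ← Units.val_mul,
      ← Units.val_mul, ← mul_assoc, inv_mul_cancel, one_mul]
  rw [trace_mapGL, trace_mapGL] at h2
  exact_mod_cast h2

/-- If `ρ * g = c * ρ` in `GL(2, ℝ)` with `g, c ∈ SL(2, ℤ)` and `g` has finite order, then `c` has
finite order. -/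
theorem isOfFinOrder_of_conj {ρ : GL (Fin 2) ℝ} {g c : SL(2, ℤ)}
    (e : ρ * mapGL ℝ g = mapGL ℝ c * ρ) (hg : IsOfFinOrder g) : IsOfFinOrder c := by
  have h1 : mapGL ℝ c = ρ * mapGL ℝ g * ρ⁻¹ := by rw [e, mul_inv_cancel_right]
  have h2 : IsOfFinOrder (mapGL ℝ g : GL (Fin 2) ℝ) := (mapGL ℝ).isOfFinOrder hg
  have h3 : IsOfFinOrder (mapGL ℝ c : GL (Fin 2) ℝ) := by
    rw [h1]
    have := (MulAut.conj ρ).toMonoidHom.isOfFinOrder h2
    simpa [MulAut.conj_apply] using this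
  exact (mapGL_real_injective.isOfFinOrder_iff).mp h3

/-! ## Transfers of coset systems -/

section Transfer

variable {K K' : Subgroup SL(2, ℤ)} {A : Type*} [AddCommGroup A]
variable {I : Type*} [Fintype I] {ρ : I → GL (Fin 2) ℝ}

theorem isCuspidalK_zero : IsCuspidalK (0 : Additive K →+ A) :=
  ⟨fun _ _ => rfl, fun _ _ => rfl⟩

/-- **The transfer of a coset system preserves cuspidal classes.** -/
theorem isCuspidalK_transfer (h : IsCosetSystem (ιK K) (ιK K') ρ) {φ : Additive K →+ A}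
    (hφ : IsCuspidalK φ) : IsCuspidalK (h.transfer φ) := by
  refine ⟨fun γ hγ => ?_, fun γ hγ => ?_⟩
  · refine transfer_eq_zero_of_cycles h φ γ fun i m c _ e => hφ.1 c ?_
    have e' : ρ i * mapGL ℝ ((γ : SL(2, ℤ)) ^ m) = mapGL ℝ (c : SL(2, ℤ)) * ρ i := e
    rw [trace_eq_of_conj e', Matrix.SpecialLinearGroup.coe_pow]
    exact Fermat.Agent.S41.H581.trace_pow_sq_eq_four _ (γ : SL(2, ℤ)).det_coe hγ m
  · refine transfer_eq_zero_of_cycles h φ γ fun i m c _ e => hφ.2 c ?_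
    have e' : ρ i * mapGL ℝ ((γ : SL(2, ℤ)) ^ m) = mapGL ℝ (c : SL(2, ℤ)) * ρ i := e
    have h1 : IsOfFinOrder ((γ : SL(2, ℤ)) ^ m) :=
      (K'.subtype.isOfFinOrder hγ).pow
    have h2 := isOfFinOrder_of_conj e' h1
    exact (Subgroup.subtype_injective K).isOfFinOrder_iff.mp h2

/-- The operator of any family of representatives preserves cuspidal classes. -/
theorem isCuspidalK_sysOp (ρ : I → GL (Fin 2) ℝ) {φ : Additive K →+ A}
    (hφ : IsCuspidalK φ) : IsCuspidalK (sysOp (ιK K) ρ φ) := by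
  by_cases h : IsCosetSystem (ιK K) (ιK K) ρ
  · rw [sysOp_eq h]
    exact isCuspidalK_transfer h hφ
  · unfold sysOp
    rw [dif_neg h]
    exact isCuspidalK_zero

end Transfer

section Ops

variable {M : ℕ} {K K' : Subgroup SL(2, ℤ)} {A : Type*} [AddCommGroup A]

/-- `T_ℓ` preserves cuspidal classes. -/
theorem isCuspidalK_TK (M : ℕ) (K : Subgroup SL(2, ℤ)) (ℓ : ℕ) [NeZero ℓ]
    {φ : Additive K →+ A} (hφ : IsCuspidalK φ) : IsCuspidalK (TK M K ℓ φ) :=
  isCuspidalK_sysOp _ hφ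

/-- `U_q` preserves cuspidal classes. -/
theorem isCuspidalK_UK (K : Subgroup SL(2, ℤ)) (q : ℕ) [NeZero q]
    {φ : Additive K →+ A} (hφ : IsCuspidalK φ) : IsCuspidalK (UK K q φ) :=
  isCuspidalK_sysOp _ hφ

theorem trace_conj_sl' (g x : SL(2, ℤ)) :
    ((g * x * g⁻¹ : SL(2, ℤ)) : Matrix (Fin 2) (Fin 2) ℤ).trace =
      (x : Matrix (Fin 2) (Fin 2) ℤ).trace := by
  have := Fermat.Agent.S41.H581.trace_conj_sl g⁻¹ x
  rwa [inv_inv] at this

/-- The diamond operators preserve cuspidal classes. -/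
theorem isCuspidalK_diamond (hK : IsMid M K) (g : Gamma0 M) {φ : Additive K →+ A}
    (hφ : IsCuspidalK φ) : IsCuspidalK (diamond hK g φ) := by
  refine ⟨fun γ hγ => ?_, fun γ hγ => ?_⟩
  · rw [diamond_apply]
    refine hφ.1 _ ?_
    rw [conjK_coe, trace_conj_sl']
    exact hγ
  · rw [diamond_apply]
    exact hφ.2 _ ((conjK hK g).toMonoidHom.isOfFinOrder hγ)

/-- Restriction preserves cuspidal classes. -/
theorem isCuspidalK_resK (h : K' ≤ K) {φ : Additive K →+ A} (hφ : IsCuspidalK φ) :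
    IsCuspidalK (resK h φ) := by
  refine ⟨fun γ hγ => ?_, fun γ hγ => ?_⟩
  · rw [resK_apply]
    exact hφ.1 _ hγ
  · rw [resK_apply]
    exact hφ.2 _ ((Subgroup.inclusion h).isOfFinOrder hγ)

/-- Corestriction preserves cuspidal classes. -/
theorem isCuspidalK_coresK (h : K' ≤ K) {ψ : Additive K' →+ A} (hψ : IsCuspidalK ψ) :
    IsCuspidalK (coresK h ψ) := by
  refine ⟨fun γ hγ => ?_, fun γ hγ => ?_⟩
  · refine Fermat.Agent.S41.H581.transferAlong_eq_zero_of _ ψ γ fun _ k t c hc => hψ.1 c ?_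
    have h1 : ((c : SL(2, ℤ))) = ((t : SL(2, ℤ)))⁻¹ * (γ : SL(2, ℤ)) ^ k * (t : SL(2, ℤ)) := by
      have := congrArg (Subtype.val) hc
      simpa using this
    rw [h1, Fermat.Agent.S41.H581.trace_conj_sl, Matrix.SpecialLinearGroup.coe_pow]
    exact Fermat.Agent.S41.H581.trace_pow_sq_eq_four _ (γ : SL(2, ℤ)).det_coe hγ k
  · refine Fermat.Agent.S41.H581.transferAlong_eq_zero_of _ ψ γ fun hinj k t c hc => hψ.2 c ?_
    rw [← hinj.isOfFinOrder_iff, hc]
    have h1 : IsOfFinOrder (γ ^ k) := hγ.pow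
    have h2 := (MulAut.conj t⁻¹).toMonoidHom.isOfFinOrder h1
    simpa [MulAut.conj_apply] using h2

end Ops

end Fermat.Agent.S59.TW.H653
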