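import Mathlib
import Fermat.Agent.S59.TW.H653.Cusp
import Fermat.Agent.S59.TW.H653.UqKer

/-!
# S59 / TW-HECKE (helper653): cuspidal classes in the vocabulary of block M-FREE

`κ : Γ₀(M) →* D` trivial on `{d ≡ 1 mod M}`, `Γ' = MFree.kerSub κ`.  All operators of the Hecke
algebra of `Hom(Γ', A)` preserve the cuspidal classes (`IsCuspidalK` = `S41.Spec.IsCuspidalOn`):

* `isCuspidalK_res`, `isCuspidalK_cor`, `isCuspidalK_conjAct`, `isCuspidalK_heckeKer`,
  `isCuspidalK_UqKer`;
* `cuspSubK K O` : the `O`-submodule of cuspidal classes of `Hom(K, O)`;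
* `isCuspidalK_of_smul` : over a torsion-free `A`, `n • φ` cuspidal (`n ≠ 0`) implies `φ` cuspidal.
-/

set_option autoImplicit false

namespace Fermat.Agent.S59.TW.H653

open CongruenceSubgroup Matrix.SpecialLinearGroup ModularCurve.Period ModularForm
open Fermat.Agent.S29.H642 Fermat.Agent.S41.H761
open Fermat.Agent.S59.MFree Fermat.Agent.S59.MFree.H587 Fermat.Agent.S59.MFree.H941
open P2MW.S_ModularForm_heckeT_slash_eq_self_of_mem_Gamma0.ModularForm.HeckeSlashInvariance
open scoped MatrixGroups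

theorem isCuspidalK_iff_isCuspidalOn {K : Subgroup SL(2, ℤ)} {A : Type*} [AddCommGroup A]
    (φ : Additive K →+ A) : IsCuspidalK φ ↔ Fermat.Agent.S41.Spec.IsCuspidalOn K φ := Iff.rfl

section Ker

variable {M : ℕ} {D : Type} [Group D]
variable (κ : Gamma0 M →* D)
variable (hΓ1 : ∀ γ : Gamma0 M, ((((γ : SL(2, ℤ)) 1 1 : ℤ)) : ZMod M) = 1 → κ γ = 1)
variable {A : Type*} [AddCommGroup A]

/-- `res` preserves cuspidal classes. -/
theorem isCuspidalK_res {y : Additive (Gamma0 M) →+ A} (hy : IsCuspidalK y) :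
    IsCuspidalK (res κ y) :=
  isCuspidalK_resK (kerSub_le κ) hy

/-- `cor` preserves cuspidal classes. -/
theorem isCuspidalK_cor {x : Additive (kerSub κ) →+ A} (hx : IsCuspidalK x) :
    IsCuspidalK (cor κ x) :=
  isCuspidalK_coresK (kerSub_le κ) hx

include hΓ1 in
/-- The diamond operators preserve cuspidal classes. -/
theorem isCuspidalK_conjAct (g : Gamma0 M) {x : Additive (kerSub κ) →+ A}
    (hx : IsCuspidalK x) : IsCuspidalK (conjAct κ g x) := by
  rw [conjAct_eq_diamond κ hΓ1]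
  exact isCuspidalK_diamond _ _ hx

/-- `T_l` preserves cuspidal classes. -/
theorem isCuspidalK_heckeKer {l : ℕ} [Fact l.Prime] (hl : ¬ l ∣ M)
    {x : Additive (kerSub κ) →+ A} (hx : IsCuspidalK x) :
    IsCuspidalK (heckeKer hl κ hΓ1 x) := by
  rw [heckeKer_eq_TK hl κ hΓ1]
  exact isCuspidalK_TK M _ l hx

/-- `U_q` preserves cuspidal classes. -/
theorem isCuspidalK_UqKer {q : ℕ} [Fact q.Prime] (hq : q ∣ M)
    {x : Additive (kerSub κ) →+ A} (hx : IsCuspidalK x) :
    IsCuspidalK (UqKer κ hΓ1 hq x) :=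
  isCuspidalK_UK _ q hx

end Ker

section Sub

variable (K : Subgroup SL(2, ℤ)) (O : Type*) [CommRing O]

/-- The `O`-submodule of cuspidal classes of `Hom(K, O)`. -/
def cuspSubK : Submodule O (Additive K →+ O) where
  carrier := {φ | IsCuspidalK φ}
  zero_mem' := isCuspidalK_zero
  add_mem' := fun {φ ψ} h1 h2 => (cuspK K O).add_mem h1 h2
  smul_mem' := by
    rintro a φ ⟨h1, h2⟩
    refine ⟨fun γ hγ => ?_, fun γ hγ => ?_⟩
    · show a • φ (Additive.ofMul γ) = 0
      rw [h1 γ hγ, smul_zero]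
    · show a • φ (Additive.ofMul γ) = 0
      rw [h2 γ hγ, smul_zero]

variable {K O}

theorem mem_cuspSubK {φ : Additive K →+ O} : φ ∈ cuspSubK K O ↔ IsCuspidalK φ := Iff.rfl

end Sub

/-- Over a torsion-free group, `n • φ` cuspidal (`n ≠ 0`) implies `φ` cuspidal. -/
theorem isCuspidalK_of_nsmul {K : Subgroup SL(2, ℤ)} {A : Type*} [AddCommGroup A]
    [IsAddTorsionFree A] {n : ℕ} (hn : n ≠ 0) {φ : Additive K →+ A}
    (h : IsCuspidalK (n • φ)) : IsCuspidalK φ := by
  refine ⟨fun γ hγ => ?_, fun γ hγ => ?_⟩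
  · have := h.1 γ hγ
    rw [AddMonoidHom.smul_apply] at this
    exact (nsmul_eq_zero_iff_right hn).mp this
  · have := h.2 γ hγ
    rw [AddMonoidHom.smul_apply] at this
    exact (nsmul_eq_zero_iff_right hn).mp this

end Fermat.Agent.S59.TW.H653
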